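import Fermat.Agent.LT.Th.GaussC
import Fermat.Agent.CFT.Global2.Unramified

/-!
# Unramified Gauss sums of norm forms: number fields

`E/F` a quadratic extension of number fields with conjugation `c`.
-/

set_option autoImplicit false

noncomputable section

namespace Fermat.Agent.LT.Th.NF

open NumberField IsDedekindDomain
open Fermat.Agent.CFT.Places Fermat.Agent.CFT.Global2.Unr
open Fermat.Agent.LT.Th.QD
open Ideal (absNorm)

variable {F E : Type*} [Field F] [NumberField F] [Field E] [NumberField E] [Algebra F E]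
  [IsGalois F E] (h2 : Module.finrank F E = 2) {c : E ≃ₐ[F] E} (hc : c ≠ 1)

/-- conjugation on integers -/
def cI (c : E ≃ₐ[F] E) : 𝓞 E →+* 𝓞 E :=
  (RingOfIntegers.mapRingEquiv (c : E ≃+* E) : 𝓞 E ≃+* 𝓞 E)

omit [NumberField F] [NumberField E] [IsGalois F E] in
@[simp] theorem coe_cI (c : E ≃ₐ[F] E) (x : 𝓞 E) : ((cI c x : 𝓞 E) : E) = c x := rfl

/-- the quadratic data of `𝓞 E / 𝓞 F` -/
def qd : QD (𝓞 F) (𝓞 E) where
  σ := cI c
  nm x := ⟨Algebra.norm F (x : E), Algebra.isIntegral_norm F x.2⟩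
  tr x := ⟨Algebra.trace F E (x : E), Algebra.isIntegral_trace x.2⟩
  inj := FaithfulSMul.algebraMap_injective (𝓞 F) (𝓞 E)
  σσ x := RingOfIntegers.ext (by
    rw [coe_cI, coe_cI]
    exact apply_apply h2 hc _)
  σ_alg r := RingOfIntegers.ext (c.commutes (r : F))
  nm_alg x := RingOfIntegers.ext (norm_eq_mul h2 hc (x : E))
  tr_alg x := RingOfIntegers.ext (trace_eq_add h2 hc (x : E))

@[simp] theorem coe_nm (x : 𝓞 E) :
    (((qd h2 hc).nm x : 𝓞 F) : F) = Algebra.norm F (x : E) := rfl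

theorem qd_nm (x : 𝓞 E) : algebraMap (𝓞 F) F ((qd h2 hc).nm x) =
    Algebra.norm F (algebraMap (𝓞 E) E x) := rfl

theorem mem_cj_iff {I : Ideal (𝓞 E)} {x : 𝓞 E} : x ∈ (qd h2 hc).cj I ↔ cI c x ∈ I :=
  (qd h2 hc).mem_cj

/-- the conjugate ideal is the conjugate place -/
theorem cj_asIdeal (w : HeightOneSpectrum (𝓞 E)) :
    (qd h2 hc).cj w.asIdeal = (conj c w).asIdeal := by
  ext x
  rw [mem_cj_iff, mem_conj]
  have : (RingOfIntegers.mapRingEquiv (c : E ≃+* E)).symm x = cI c x := by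
    rw [RingEquiv.symm_apply_eq]
    apply RingOfIntegers.ext
    exact (apply_apply h2 hc (x : E)).symm
  rw [this]

omit [IsGalois F E] in
/-- a place moved by the conjugation -/
theorem exists_sub_notMem_of_conj_ne {w : HeightOneSpectrum (𝓞 E)} (hw : conj c w ≠ w) :
    ∃ x : 𝓞 E, x - cI c x ∉ w.asIdeal := by
  by_contra h
  push Not at h
  apply hw
  apply HeightOneSpectrum.ext
  refine ((conj c w).isMaximal.eq_of_le w.isPrime.ne_top ?_)
  intro x hx
  rw [mem_conj] at hx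
  have h1 := h ((RingOfIntegers.mapRingEquiv (c : E ≃+* E)).symm x)
  have h3 : cI c ((RingOfIntegers.mapRingEquiv (c : E ≃+* E)).symm x) = x :=
    (RingOfIntegers.mapRingEquiv (c : E ≃+* E)).apply_symm_apply x
  rw [h3] at h1
  have := w.asIdeal.sub_mem hx h1
  rwa [sub_sub_cancel] at this

include hc in
/-- unramified places: the conjugation does not act trivially on the residue field -/
theorem exists_sub_notMem {w : HeightOneSpectrum (𝓞 E)}
    (he : (w.under (𝓞 F)).asIdeal.ramificationIdx' w.asIdeal = 1) :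
    ∃ x : 𝓞 E, x - cI c x ∉ w.asIdeal := by
  by_cases hw : conj c w = w
  · set v := w.under (𝓞 F) with hv
    have hv0 : v.asIdeal ≠ ⊥ := v.ne_bot
    have he' : v.asIdeal.ramificationIdxIn (𝓞 E) = 1 := by
      rw [Ideal.ramificationIdxIn_eq_ramificationIdx v.asIdeal w.asIdeal Gal(E/F),
        ← Ideal.ramificationIdx'_eq_ramificationIdx v.asIdeal w.asIdeal hv0, he]
    have hin : Nat.card (w.asIdeal.inertia Gal(E/F)) = 1 := by
      rw [Ideal.card_inertia_eq_ramificationIdxIn v.asIdeal w.asIdeal, he']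
    by_contra h
    push Not at h
    have h1 : c ∈ w.asIdeal.inertia Gal(E/F) := by
      intro x
      have h3 : c • x - x ∈ w.asIdeal := by
        have h4 := w.asIdeal.neg_mem (h x)
        rw [neg_sub] at h4
        exact h4
      exact h3
    have h3 : (w.asIdeal.inertia Gal(E/F)) = ⊥ := Subgroup.card_eq_one.mp hin
    rw [h3, Subgroup.mem_bot] at h1
    exact hc h1
  · exact exists_sub_notMem_of_conj_ne hw

/-- the condition `hun` of the value of the Gauss sum -/
theorem dif_sup_eq_top {D : Ideal (𝓞 F)}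
    (h : ∀ w : HeightOneSpectrum (𝓞 E), D ≤ (w.under (𝓞 F)).asIdeal →
      ∃ x : 𝓞 E, x - cI c x ∉ w.asIdeal) (hD : D ≠ ⊥) :
    (qd h2 hc).dif ⊔ ex D = ⊤ := by
  by_contra hne
  obtain ⟨m, hm, hle⟩ := Ideal.exists_le_maximal _ hne
  have hm0 : m ≠ ⊥ := by
    rintro rfl
    exact (qd h2 hc).ex_ne_bot hD (eq_bot_iff.mpr (le_sup_right.trans hle))
  let w : HeightOneSpectrum (𝓞 E) := ⟨m, hm.isPrime, hm0⟩
  obtain ⟨x, hx⟩ := h w (Ideal.map_le_iff_le_comap.mp (le_sup_right.trans hle))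
  exact hx (hle (Ideal.mem_sup_left (Ideal.subset_span ⟨x, rfl⟩)))

include h2 hc in
/-- `v 𝓞 E` is maximal iff the places above are fixed -/
theorem ex_isMaximal_iff {w : HeightOneSpectrum (𝓞 E)}
    (hw : ∃ x : 𝓞 E, x - cI c x ∉ w.asIdeal) :
    (ex (R' := 𝓞 E) (w.under (𝓞 F)).asIdeal).IsMaximal ↔ conj c w = w := by
  set v := w.under (𝓞 F) with hv
  have hle : ex (R' := 𝓞 E) v.asIdeal ≤ w.asIdeal := Ideal.map_le_iff_le_comap.mpr le_rfl
  have hG : Nat.card Gal(E/F) = 2 := by rw [IsGalois.card_aut_eq_finrank, h2]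
  have hun : (qd h2 hc).dif ⊔ ex v.asIdeal = ⊤ := by
    refine dif_sup_eq_top h2 hc (fun w' hw' => ?_) v.ne_bot
    by_cases h3 : conj c w' = w'
    · -- then `w' = w`
      have h5 : (w'.under (𝓞 F)).asIdeal = v.asIdeal :=
        (v.isMaximal.eq_of_le (w'.under (𝓞 F)).isPrime.ne_top hw').symm
      have h6 : w'.asIdeal.LiesOver v.asIdeal := by
        rw [← h5]; infer_instance
      obtain ⟨τ, hτ⟩ := Ideal.exists_smul_eq_of_isGaloisGroup v.asIdeal w'.asIdeal
        w.asIdeal Gal(E/F)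
      have h4 : w = w' := by
        apply HeightOneSpectrum.ext
        rw [← hτ, smul_asIdeal]
        rcases eq_one_or_of_card_two hG hc τ with rfl | rfl
        · rw [conj_one]
        · rw [h3]
      rw [← h4]
      exact hw
    · exact exists_sub_notMem_of_conj_ne h3
  constructor
  · intro h
    have h1 : ex v.asIdeal = w.asIdeal := h.eq_of_le w.isPrime.ne_top hle
    apply HeightOneSpectrum.ext
    rw [← cj_asIdeal h2 hc, ← h1, (qd h2 hc).cj_ex]
  · intro h
    rcases (qd h2 hc).inert_or_split v.isMaximal hun with hin | ⟨w', hw', hvw, hcop, hsp⟩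
    · exact hin
    · exfalso
      have h3 : w' * (qd h2 hc).cj w' ≤ w.asIdeal := by rw [hsp]; exact hle
      have hcw : (qd h2 hc).cj w.asIdeal = w.asIdeal := by rw [cj_asIdeal, h]
      rcases (w.isPrime.mul_le).mp h3 with h4 | h4
      · have h5 : w' = w.asIdeal := hw'.eq_of_le w.isPrime.ne_top h4
        rw [h5, hcw, sup_idem] at hcop
        exact w.isPrime.ne_top hcop
      · have h4' : w' ≤ w.asIdeal := by
          have := (qd h2 hc).cj_le h4
          rwa [(qd h2 hc).cj_cj, hcw] at this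
        have h5 : w' = w.asIdeal := hw'.eq_of_le w.isPrime.ne_top h4'
        rw [h5, hcw, sup_idem] at hcop
        exact w.isPrime.ne_top hcop

open Classical in
/-- **The value of the Gauss sum for number fields.** `N` is such that the conjugation acts
non-trivially on the residue fields of all places of `E` not containing `N` (unramified). -/
theorem gauss_eq_NF {N : ℕ} (hN : ∀ w : HeightOneSpectrum (𝓞 E), (N : 𝓞 E) ∉ w.asIdeal →
      ∃ x : 𝓞 E, x - cI c x ∉ w.asIdeal) {D : Ideal (𝓞 F)} (hD : D ≠ ⊥)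
    (hDN : ∃ n : ℕ, n.Coprime N ∧ (n : 𝓞 F) ∈ D)
    [Fintype (𝓞 E ⧸ D.map (algebraMap (𝓞 F) (𝓞 E)))] {e : AddChar (𝓞 F) ℂ} (he : cond e = D) :
    gauss (qd h2 hc) (D.map (algebraMap (𝓞 F) (𝓞 E))) e = (absNorm D : ℂ) * chi (𝓞 E) D := by
  refine (qd h2 hc).gauss_eq hD (dif_sup_eq_top h2 hc (fun w hw => hN w fun h => ?_) hD) he
  obtain ⟨n, hnN, hn⟩ := hDN
  have h1 : (n : 𝓞 E) ∈ w.asIdeal := by
    have h3 : algebraMap (𝓞 F) (𝓞 E) (n : 𝓞 F) ∈ w.asIdeal := hw hn
    rwa [map_natCast] at h3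
  obtain ⟨a, b, hab⟩ : IsCoprime (n : ℤ) (N : ℤ) := Nat.isCoprime_iff_coprime.2 hnN
  apply w.isPrime.ne_top
  rw [Ideal.eq_top_iff_one]
  have h3 : (1 : 𝓞 E) = (a : 𝓞 E) * (n : 𝓞 E) + (b : 𝓞 E) * (N : 𝓞 E) := by
    have := congrArg (fun z : ℤ => (z : 𝓞 E)) hab
    push_cast at this
    exact this.symm
  rw [h3]
  exact w.asIdeal.add_mem (w.asIdeal.mul_mem_left _ h1) (w.asIdeal.mul_mem_left _ h)

include h2 hc in
/-- the sign at a place -/
theorem chi_asIdeal {w : HeightOneSpectrum (𝓞 E)} (hw : ∃ x : 𝓞 E, x - cI c x ∉ w.asIdeal)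
    [Decidable (conj c w = w)] :
    chi (𝓞 E) (w.under (𝓞 F)).asIdeal = if conj c w = w then -1 else 1 := by
  rw [chi_prime (w.under (𝓞 F)).isMaximal (w.under (𝓞 F)).ne_bot, sgn]
  by_cases h : conj c w = w
  · rw [if_pos h, if_pos ((ex_isMaximal_iff h2 hc hw).mpr h)]
  · rw [if_neg h, if_neg (fun h' => h ((ex_isMaximal_iff h2 hc hw).mp h'))]

end Fermat.Agent.LT.Th.NF
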