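import Mathlib

/-!
# Eichler's transformation law of theta functions, abstract form
-/

set_option autoImplicit false

noncomputable section

open scoped BigOperators

namespace Fermat.Agent.LT.Th

/-- A theta kernel: a quadratic form `q` with values in `F`, an additive character `e` of `F` and a
kernel `K P x` with the transformation rules of the Weil representation. -/
structure Kernel (F E Pt : Type*) [Field F] [AddCommGroup E] [Module F E] where
  /-- quadratic form -/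
  q : E → F
  /-- polar form -/
  B : E → E → F
  /-- additive character -/
  e : AddChar F ℂ
  /-- the kernel -/
  K : Pt → E → ℂ
  /-- translations -/
  tl : F → Pt → Pt
  /-- dilations -/
  dl : F → Pt → Pt
  /-- inversion -/
  w : Pt → Pt
  /-- the modulus -/
  ν : F → ℂ
  q_add : ∀ x y, q (x + y) = q x + B x y + q y
  q_smul : ∀ (c : F) x, q (c • x) = c ^ 2 * q x
  B_add : ∀ x y z, B (x + y) z = B x z + B y z
  B_smul : ∀ (c : F) x y, B (c • x) y = c * B x y
  B_comm : ∀ x y, B x y = B y x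
  K_tl : ∀ u P x, K (tl u P) x = e (u * q x) * K P x
  K_dl : ∀ d, d ≠ 0 → ∀ P x, K (dl d P) x = (ν d)⁻¹ * K P (d⁻¹ • x)
  w_w : ∀ P, w (w P) = P

namespace Kernel

variable {F E Pt : Type*} [Field F] [AddCommGroup E] [Module F E] (k : Kernel F E Pt)

theorem B_add' (x y z : E) : k.B x (y + z) = k.B x y + k.B x z := by
  rw [k.B_comm, k.B_add, k.B_comm y, k.B_comm z]

theorem B_smul' (c : F) (x y : E) : k.B x (c • y) = c * k.B x y := by
  rw [k.B_comm, k.B_smul, k.B_comm]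

/-- Poisson summation with shift for the lattice `Λ` with dual lattice `Λs`. -/
def Poisson (Λ Λs : AddSubgroup E) (C : ℂ) : Prop :=
  ∀ P s, Summable (fun u : Λ => k.K (k.w P) (s + u)) ∧
    HasSum (fun y : Λs => C * k.e (k.B s y) * k.K P y) (∑' u : Λ, k.K (k.w P) (s + u))

/-- The point `γ P` for `γ = (a, b; c, d)`, `d ≠ 0`, by the Bruhat decomposition. -/
def act (b c d : F) (P : Pt) : Pt :=
  k.tl (b / d) (k.dl d (k.w (k.tl (-c / d) (k.w P))))

variable {k}

/-- The hypotheses of the transformation law. -/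
structure Adm (k : Kernel F E Pt) (a b c d : F) (h : E) (Λ Λ₂ Λs : AddSubgroup E) : Prop where
  det : a * d - b * c = 1
  d0 : d ≠ 0
  dmem : ∀ x ∈ Λ₂, d • x ∈ Λ
  amem : ∀ x ∈ Λ, a • x ∈ Λ₂
  cmem : ∀ y ∈ Λs, c • y ∈ Λ
  dual : ∀ x ∈ Λ₂, ∀ y ∈ Λs, k.e (k.B x y) = 1
  e1 : ∀ x ∈ Λ, ∀ y ∈ Λ₂, k.e (b * k.B x y) = 1
  e2 : ∀ x ∈ Λ₂, k.e (b * d * k.q x) = 1
  e3 : ∀ y ∈ Λs, k.e (a * c * k.q y) = 1
  e4 : k.e (b * d * k.q h) = 1
  e5 : ∀ x ∈ Λ, k.e (b * k.B h x) = 1

/-- Representatives of `Λ` modulo `d Λ₂`. -/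
structure Reps (d : F) (Λ Λ₂ : AddSubgroup E) {ρ : Type*} (r : ρ → E) : Prop where
  mem : ∀ i, r i ∈ Λ
  ex : ∀ x ∈ Λ, ∃ i, ∃ m ∈ Λ₂, x = r i + d • m
  uniq : ∀ i j, (∃ m ∈ Λ₂, r i - r j = d • m) → i = j

variable {a b c d : F} {h : E} {Λ Λ₂ Λs : AddSubgroup E} {ρ : Type*} {r : ρ → E}

theorem Adm.phi_add (H : Adm k a b c d h Λ Λ₂ Λs) {x : E} (hx : x ∈ Λ) {m : E} (hm : m ∈ Λ₂) :
    k.e (b * k.q (x + d • m) / d) = k.e (b * k.q x / d) := by
  have hd := H.d0
  have h1 : b * k.q (x + d • m) / d = b * k.q x / d + b * k.B x m + b * d * k.q m := by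
    rw [k.q_add, k.B_smul', k.q_smul]
    field_simp
  rw [h1, AddChar.map_add_eq_mul, AddChar.map_add_eq_mul, H.e1 x hx m hm, H.e2 m hm, mul_one,
    mul_one]

/-- The Gauss sum is invariant under translation. -/
theorem Adm.gauss_add [Fintype ρ] (H : Adm k a b c d h Λ Λ₂ Λs) (hr : Reps d Λ Λ₂ r) {z : E}
    (hz : z ∈ Λ) : ∑ i, k.e (b * k.q (r i + z) / d) = ∑ i, k.e (b * k.q (r i) / d) := by
  classical
  have h1 : ∀ i, ∃ j, ∃ m ∈ Λ₂, r i + z = r j + d • m := fun i => hr.ex _ (Λ.add_mem (hr.mem i) hz)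
  choose π m hm hπ using h1
  have hinj : Function.Injective π := by
    intro i j hij
    apply hr.uniq
    refine ⟨m i - m j, Λ₂.sub_mem (hm i) (hm j), ?_⟩
    have h2 := hπ i
    have h3 := hπ j
    rw [hij] at h2
    rw [smul_sub]
    have h4 : r i = r (π j) + d • m i - z := by rw [← h2]; abel
    have h5 : r j = r (π j) + d • m j - z := by rw [← h3]; abel
    rw [h4, h5]
    abel
  have hbij : Function.Bijective π := Finite.injective_iff_bijective.mp hinj
  rw [← hbij.sum_comp fun i => k.e (b * k.q (r i) / d)]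
  refine Finset.sum_congr rfl fun i _ => ?_
  rw [hπ i, H.phi_add (hr.mem _) (hm i)]

theorem Adm.phase (H : Adm k a b c d h Λ Λ₂ Λs) {x m : E} (hx : x ∈ Λ) (hm : m ∈ Λ₂) :
    k.e (b / d * k.q (d • h + (x + d • m))) = k.e (b * k.q x / d) := by
  have hd := H.d0
  have h1 : b / d * k.q (d • h + (x + d • m)) = b * k.q (x + d • m) / d +
      b * k.B h (x + d • m) + b * d * k.q h := by
    rw [k.q_add (d • h), k.q_smul, k.B_smul]
    field_simp
    ring
  rw [h1, AddChar.map_add_eq_mul, AddChar.map_add_eq_mul, H.e4, H.phi_add hx hm,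
    H.e5 _ (Λ.add_mem hx (H.dmem m hm)), mul_one, mul_one]

theorem Adm.inner [Fintype ρ] (H : Adm k a b c d h Λ Λ₂ Λs) (hr : Reps d Λ Λ₂ r) {y : E}
    (hy : y ∈ Λs) :
    ∑ i, k.e (b * k.q (r i) / d) * (k.e (k.B (h + d⁻¹ • r i) y) * k.e (-c / d * k.q y)) =
      k.e (k.B h y) * ∑ i, k.e (b * k.q (r i) / d) := by
  have hd := H.d0
  have hz : -(c • y) ∈ Λ := Λ.neg_mem (H.cmem y hy)
  rw [← H.gauss_add hr hz, Finset.mul_sum]
  refine Finset.sum_congr rfl fun i _ => ?_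
  have h1 : k.e (k.B (a • r i) y) = 1 := H.dual _ (H.amem _ (hr.mem i)) _ hy
  have h2 : k.e (a * c * k.q y) = 1 := H.e3 y hy
  have h3 : b * k.q (r i) / d + (k.B (h + d⁻¹ • r i) y + -c / d * k.q y) + a * c * k.q y =
      k.B h y + b * k.q (r i + -(c • y)) / d + k.B (a • r i) y := by
    have h4 : -(c • y) = (-c) • y := by rw [neg_smul]
    rw [h4, k.q_add, k.B_smul', k.q_smul, k.B_add, k.B_smul, k.B_smul]
    field_simp
    linear_combination (k.q y * c - k.B (r i) y) * H.det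
  have h5 := congrArg k.e h3
  rw [AddChar.map_add_eq_mul, AddChar.map_add_eq_mul, AddChar.map_add_eq_mul,
    AddChar.map_add_eq_mul, AddChar.map_add_eq_mul, h1, h2, mul_one, mul_one] at h5
  exact h5

/-- the equivalence of `Λ` with pairs of a representative and an element of `Λ₂` -/
def Reps.equiv (hr : Reps d Λ Λ₂ r) (hd : d ≠ 0) (hdm : ∀ x ∈ Λ₂, d • x ∈ Λ) : ρ × Λ₂ ≃ Λ :=
  Equiv.ofBijective (fun p => ⟨r p.1 + d • (p.2 : E), Λ.add_mem (hr.mem _) (hdm _ p.2.2)⟩) (by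
    constructor
    · rintro ⟨i, m⟩ ⟨j, m'⟩ hij
      have h1 : r i + d • (m : E) = r j + d • (m' : E) := congrArg Subtype.val hij
      have h2 : i = j := by
        apply hr.uniq
        refine ⟨(m' : E) - m, Λ₂.sub_mem m'.2 m.2, ?_⟩
        have h3 : r i = r j + d • (m' : E) - d • (m : E) := by rw [← h1]; abel
        rw [h3, smul_sub]
        abel
      subst h2
      have h3 : d • (m : E) = d • (m' : E) := add_left_cancel h1
      have h4 : (m : E) = m' := by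
        have h5 := congrArg (fun x => d⁻¹ • x) h3
        simpa only [smul_smul, inv_mul_cancel₀ hd, one_smul] using h5
      rw [Subtype.ext h4]
    · rintro ⟨x, hx⟩
      obtain ⟨i, m, hm, rfl⟩ := hr.ex x hx
      exact ⟨(i, ⟨m, hm⟩), rfl⟩)

@[simp] theorem Reps.equiv_apply (hr : Reps d Λ Λ₂ r) (hd : d ≠ 0) (hdm : ∀ x ∈ Λ₂, d • x ∈ Λ)
    (p : ρ × Λ₂) : ((hr.equiv hd hdm p : Λ) : E) = r p.1 + d • (p.2 : E) := rfl

/-- **Eichler's transformation law.** -/
theorem Adm.law [Fintype ρ] (H : Adm k a b c d h Λ Λ₂ Λs) (hr : Reps d Λ Λ₂ r) {C : ℂ}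
    (hP : k.Poisson Λ₂ Λs C) (P : Pt) :
    Summable (fun x : Λ => k.K (k.act b c d P) (d • h + x)) ∧
    ∑' x : Λ, k.K (k.act b c d P) (d • h + x) =
      (k.ν d)⁻¹ * (∑ i, k.e (b * k.q (r i) / d)) * ∑' x : Λ₂, k.K P (h + x) := by
  classical
  have hd := H.d0
  set P1 := k.tl (-c / d) (k.w P) with hP1
  -- the terms
  have hterm : ∀ p : ρ × Λ₂, k.K (k.act b c d P) (d • h + (hr.equiv hd H.dmem p : Λ)) =
      (k.ν d)⁻¹ * (k.e (b * k.q (r p.1) / d) * k.K (k.w P1) ((h + d⁻¹ • r p.1) + p.2)) := by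
    rintro ⟨i, m⟩
    rw [Reps.equiv_apply, act, k.K_tl, H.phase (hr.mem i) m.2, k.K_dl d hd, ← hP1]
    have h1 : d⁻¹ • (d • h + (r i + d • (m : E))) = (h + d⁻¹ • r i) + m := by
      rw [smul_add, smul_add, smul_smul, smul_smul, inv_mul_cancel₀ hd, one_smul, one_smul]
      abel
    simp only [h1]
    ring
  have hsum1 : ∀ i, Summable fun m : Λ₂ => (k.ν d)⁻¹ * (k.e (b * k.q (r i) / d) *
      k.K (k.w P1) ((h + d⁻¹ • r i) + m)) := fun i => ((hP P1 _).1.mul_left _).mul_left _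
  have hsum : Summable fun p : ρ × Λ₂ => (k.ν d)⁻¹ * (k.e (b * k.q (r p.1) / d) *
      k.K (k.w P1) ((h + d⁻¹ • r p.1) + p.2)) := by
    refine Summable.of_norm ?_
    refine (summable_prod_of_nonneg fun _ => norm_nonneg _).mpr ⟨fun i => (hsum1 i).norm, ?_⟩
    exact (hasSum_fintype _).summable
  have hsum' : Summable fun x : Λ => k.K (k.act b c d P) (d • h + x) := by
    rw [← (hr.equiv hd H.dmem).summable_iff]
    exact hsum.congr fun p => (hterm p).symm
  refine ⟨hsum', ?_⟩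
  rw [← (hr.equiv hd H.dmem).tsum_eq, tsum_congr hterm, hsum.tsum_prod' hsum1, tsum_fintype]
  simp_rw [tsum_mul_left]
  -- Poisson
  have h2 : HasSum (fun y : Λs => ∑ i, k.e (b * k.q (r i) / d) *
      (C * k.e (k.B (h + d⁻¹ • r i) y) * k.K P1 y))
      (∑ i, k.e (b * k.q (r i) / d) * ∑' m : Λ₂, k.K (k.w P1) ((h + d⁻¹ • r i) + m)) :=
    hasSum_sum fun i _ => (hP P1 _).2.mul_left _
  have h3 : (fun y : Λs => ∑ i, k.e (b * k.q (r i) / d) *
      (C * k.e (k.B (h + d⁻¹ • r i) y) * k.K P1 y)) =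
      fun y : Λs => (∑ i, k.e (b * k.q (r i) / d)) * (C * k.e (k.B h y) * k.K (k.w P) y) := by
    funext y
    have h4 := H.inner hr y.2
    calc ∑ i, k.e (b * k.q (r i) / d) * (C * k.e (k.B (h + d⁻¹ • r i) y) * k.K P1 y)
        = (∑ i, k.e (b * k.q (r i) / d) * (k.e (k.B (h + d⁻¹ • r i) y) *
            k.e (-c / d * k.q y))) * (C * k.K (k.w P) y) := by
          rw [Finset.sum_mul]
          refine Finset.sum_congr rfl fun i _ => ?_
          rw [hP1, k.K_tl]
          ring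
      _ = _ := by
          rw [h4]
          ring
  rw [h3] at h2
  have h5 := (hP (k.w P) h).2.mul_left (∑ i, k.e (b * k.q (r i) / d))
  have h6 := h2.unique h5
  rw [← Finset.mul_sum, h6, k.w_w]
  ring

end Kernel

end Fermat.Agent.LT.Th
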