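import Mathlib

/-!
# Quadratic extensions: norm and trace
-/

set_option autoImplicit false

noncomputable section

open Module

namespace Fermat.Agent.LT.Th

section Quad

variable {F E : Type*} [Field F] [Field E] [Algebra F E] {σ : E ≃ₐ[F] E}

theorem quad_univ [DecidableEq (E ≃ₐ[F] E)] [FiniteDimensional F E] (hE : finrank F E = 2)
    (hσ : σ ≠ 1) : (Finset.univ : Finset (E ≃ₐ[F] E)) = {1, σ} := by
  have h1 : Fintype.card (E ≃ₐ[F] E) ≤ 2 := hE ▸ AlgEquiv.card_le
  symm
  apply Finset.eq_of_subset_of_card_le (Finset.subset_univ _)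
  rw [Finset.card_univ, Finset.card_pair hσ.symm]
  exact h1

theorem quad_isGalois (hE : finrank F E = 2) (hσ : σ ≠ 1) : IsGalois F E := by
  classical
  have : FiniteDimensional F E := Module.finite_of_finrank_eq_succ hE
  apply IsGalois.of_card_aut_eq_finrank
  rw [hE, Nat.card_eq_fintype_card, ← Finset.card_univ, quad_univ hE hσ, Finset.card_pair hσ.symm]

theorem quad_norm (hE : finrank F E = 2) (hσ : σ ≠ 1) (x : E) :
    algebraMap F E (Algebra.norm F x) = x * σ x := by
  classical
  have : FiniteDimensional F E := Module.finite_of_finrank_eq_succ hE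
  have := quad_isGalois hE hσ
  rw [Algebra.norm_eq_prod_automorphisms, quad_univ hE hσ, Finset.prod_pair hσ.symm]
  rfl

theorem quad_trace (hE : finrank F E = 2) (hσ : σ ≠ 1) (x : E) :
    algebraMap F E (Algebra.trace F E x) = x + σ x := by
  classical
  have : FiniteDimensional F E := Module.finite_of_finrank_eq_succ hE
  have := quad_isGalois hE hσ
  rw [trace_eq_sum_automorphisms, quad_univ hE hσ, Finset.sum_pair hσ.symm]
  rfl

theorem quad_invol (hE : finrank F E = 2) (hσ : σ ≠ 1) (x : E) : σ (σ x) = x := by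
  have h1 := quad_trace hE hσ x
  have h2 := congrArg σ h1
  rw [AlgEquiv.commutes, map_add, h1] at h2
  have h3 : σ (σ x) = (σ x + σ (σ x)) - σ x := by ring
  rw [h3, ← h2]
  ring

theorem quad_trace_conj (hE : finrank F E = 2) (hσ : σ ≠ 1) (x : E) :
    Algebra.trace F E (σ x) = Algebra.trace F E x := by
  apply (algebraMap F E).injective
  rw [quad_trace hE hσ, quad_trace hE hσ, quad_invol hE hσ, add_comm]

theorem quad_norm_add (hE : finrank F E = 2) (hσ : σ ≠ 1) (x y : E) :
    Algebra.norm F (x + y) =
      Algebra.norm F x + Algebra.trace F E (x * σ y) + Algebra.norm F y := by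
  apply (algebraMap F E).injective
  simp only [map_add, quad_norm hE hσ, quad_trace hE hσ, map_mul, quad_invol hE hσ]
  ring

theorem quad_norm_smul (hE : finrank F E = 2) (hσ : σ ≠ 1) (c : F) (x : E) :
    Algebra.norm F (c • x) = c ^ 2 * Algebra.norm F x := by
  apply (algebraMap F E).injective
  rw [Algebra.smul_def]
  simp only [quad_norm hE hσ, map_mul, map_pow, AlgEquiv.commutes]
  ring

end Quad

end Fermat.Agent.LT.Th
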