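import Fermat.Agent.LT.WeilInf.Emb
import Fermat.Agent.LT.Space
import Fermat.Agent.LT.Th.Law
import Fermat.Agent.LT.Th.Quad

/-!
# Eichler's transformation law over a quadratic extension of a totally complex number field
-/

set_option autoImplicit false

noncomputable section

open Complex Module NumberField Matrix
open scoped Real ComplexConjugate

namespace Fermat.Agent.LT.Th

open WeilInf Poisson

section Gen

variable {F : Type*} [Field F]

/-! ### the generators of `GL₂(F)` -/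

/-- translation -/
def trG (u : F) : GL (Fin 2) F :=
  GeneralLinearGroup.mkOfDetNeZero !![1, u; 0, 1] (by simp)

/-- dilation -/
def diG (d : F) (hd : d ≠ 0) : GL (Fin 2) F :=
  GeneralLinearGroup.mkOfDetNeZero !![d⁻¹, 0; 0, d] (by simp [hd])

/-- the Weyl element -/
def weG (F : Type*) [Field F] : GL (Fin 2) F :=
  GeneralLinearGroup.mkOfDetNeZero !![0, -1; 1, 0] (by simp)

theorem coe_trG (u : F) : (trG u : Matrix (Fin 2) (Fin 2) F) = !![1, u; 0, 1] := rfl

theorem coe_diG (d : F) (hd : d ≠ 0) :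
    (diG d hd : Matrix (Fin 2) (Fin 2) F) = !![d⁻¹, 0; 0, d] := rfl

theorem coe_weG : (weG F : Matrix (Fin 2) (Fin 2) F) = !![0, -1; 1, 0] := rfl

theorem trG_smul (u : F) (P : Xi F) (w : InfinitePlace F) :
    ((trG u • P) w).z = (P w).z + w.embedding u ∧ ((trG u • P) w).y = (P w).y := by
  rw [Xi.smul_apply]
  constructor
  · rw [H3.z_smul_of_upper]
    · simp [trG, GeneralLinearGroup.map]
    · simp [trG, GeneralLinearGroup.map]
  · rw [H3.y_smul_of_upper]
    · simp [trG, GeneralLinearGroup.map]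
    · simp [trG, GeneralLinearGroup.map]

theorem diG_smul (d : F) (hd : d ≠ 0) (P : Xi F) (w : InfinitePlace F) :
    ((diG d hd • P) w).z = (P w).z / w.embedding d ^ 2 ∧
      ((diG d hd • P) w).y = (P w).y / ‖w.embedding d‖ ^ 2 := by
  rw [Xi.smul_apply]
  constructor
  · rw [H3.z_smul_of_upper]
    · simp [diG, GeneralLinearGroup.map]
      field_simp
    · simp [diG, GeneralLinearGroup.map]
  · rw [H3.y_smul_of_upper]
    · simp [diG, GeneralLinearGroup.map]
      field_simp
    · simp [diG, GeneralLinearGroup.map]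

theorem map_weG (w : InfinitePlace F) :
    GeneralLinearGroup.map (n := Fin 2) w.embedding (weG F) = H3.wl := by
  apply Units.ext
  rw [H3.coe_wl]
  ext i j
  fin_cases i <;> fin_cases j <;> simp [weG, GeneralLinearGroup.map]

theorem weG_smul (P : Xi F) (w : InfinitePlace F) :
    (((weG F • P) w).z, ((weG F • P) w).y) = wpt ((P w).z, (P w).y) := by
  rw [Xi.smul_apply, map_weG, H3.z_wl_smul, H3.y_wl_smul, wpt, normSq_eq_norm_sq]

theorem weG_weG (P : Xi F) : weG F • weG F • P = P := by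
  have h : weG F * weG F = GeneralLinearGroup.scalar (Fin 2) (-1 : Fˣ) := by
    apply Units.ext
    rw [Units.val_mul, coe_weG]
    ext i j
    fin_cases i <;> fin_cases j <;> simp
  rw [smul_smul, h, TrivScalar.scalar_smul]

/-- Bruhat decomposition -/
theorem bruhat_smul {γ : GL (Fin 2) F} {a b c d : F}
    (hγ : (γ : Matrix (Fin 2) (Fin 2) F) = !![a, b; c, d]) (det : a * d - b * c = 1) (hd : d ≠ 0)
    (P : Xi F) : trG (b / d) • diG d hd • weG F • trG (-c / d) • weG F • P = γ • P := by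
  have h : trG (b / d) * (diG d hd * (weG F * (trG (-c / d) * weG F))) =
      GeneralLinearGroup.scalar (Fin 2) (-1 : Fˣ) * γ := by
    apply Units.ext
    simp only [Units.val_mul, coe_weG, coe_trG, coe_diG, hγ, GeneralLinearGroup.coe_scalar,
      Matrix.mul_fin_two]
    ext i j
    fin_cases i <;> fin_cases j
    · simp
      field_simp
      linear_combination det
    · simp
      field_simp
    · simp
      field_simp
    · simp
  rw [smul_smul, smul_smul, smul_smul, smul_smul, mul_assoc, mul_assoc, mul_assoc, h, mul_smul,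
    TrivScalar.scalar_smul]

end Gen

section NF

variable {F E : Type*} [Field F] [NumberField F] [Field E] [NumberField E] [Algebra F E]

/-- The character `exp (2 π i Tr x)` of a number field. -/
def eF (F : Type*) [Field F] [NumberField F] : AddChar F ℂ where
  toFun x := WeilInf.E ((Algebra.trace ℚ F x : ℚ) : ℝ) 0
  map_zero_eq_one' := by simp [E_zero]
  map_add_eq_mul' x y := by rw [E_mul, map_add]; simp

theorem eF_apply (x : F) : eF F x = WeilInf.E ((Algebra.trace ℚ F x : ℚ) : ℝ) 0 := rfl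

theorem eF_eq_cexp (x : F) : eF F x = cexp (2 * π * I * (Algebra.trace ℚ F x : ℚ)) := by
  rw [eF_apply, WeilInf.E]
  congr 1
  push_cast
  ring

theorem norm_eF (x : F) : ‖eF F x‖ = 1 := by
  rw [eF_apply, norm_E]; simp

theorem eF_of_trace {x : F} {n : ℤ} (h : Algebra.trace ℚ F x = n) : eF F x = 1 := by
  rw [eF_apply, h, Rat.cast_intCast, E_int]

theorem exists_trace_eq {K : Type*} [Field K] [NumberField K] {x : K} (hx : IsIntegral ℤ x) :
    ∃ n : ℤ, Algebra.trace ℚ K x = n := by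
  have h1 : IsIntegral ℤ (Algebra.trace ℚ K x) := Algebra.isIntegral_trace hx
  obtain ⟨n, hn⟩ := IsIntegrallyClosed.isIntegral_iff.mp h1
  exact ⟨n, by rw [← hn]; simp⟩

theorem eF_of_isIntegral {x : F} (hx : IsIntegral ℤ x) : eF F x = 1 := by
  obtain ⟨n, hn⟩ := exists_trace_eq hx
  exact eF_of_trace hn

theorem eF_trace (x : E) : eF F (Algebra.trace F E x) = eF E x := by
  have : IsScalarTower ℚ F E := inferInstance
  rw [eF_apply, eF_apply, Algebra.trace_trace]

theorem eF_trace_of_isIntegral {x : E} (hx : IsIntegral ℤ x) :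
    eF F (Algebra.trace F E x) = 1 := by
  rw [eF_trace, eF_of_isIntegral hx]

/-- The theta kernel at a point of `E`. -/
def thK (φ : InfinitePlace F → E →+* ℂ) (σ : E ≃ₐ[F] E) (t : InfinitePlace F → ℝ) (P : Xi F)
    (x : E) : ℂ :=
  WeilInf.G (fun w => ((P w).z, (P w).y)) t (jpair φ ((σ : E ≃+* E) : E →+* E) x)

theorem thK_def (φ : InfinitePlace F → E →+* ℂ) (σ : E ≃ₐ[F] E) (t : InfinitePlace F → ℝ)
    (P : Xi F) (x : E) : thK φ σ t P x =
      ∏ w, WeilInf.ker (P w).z (P w).y (t w) (φ w x) (φ w (σ x)) := rfl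

/-- The modulus `∏ |d_w|²`. -/
def nuF (d : F) : ℝ := ∏ w : InfinitePlace F, ‖w.embedding d‖ ^ 2

variable [IsTotallyComplex F] (hE : finrank F E = 2) {σ : E ≃ₐ[F] E} (hσ : σ ≠ 1)
  {φ : InfinitePlace F → E →+* ℂ} (hφ : ∀ w x, φ w (algebraMap F E x) = w.embedding x)
  {t : InfinitePlace F → ℝ}

theorem nuF_eq (d : F) : nuF d = ((|Algebra.norm ℚ d| : ℚ) : ℝ) := by
  rw [← InfinitePlace.prod_eq_abs_norm, nuF]
  refine Finset.prod_congr rfl fun w _ => ?_
  rw [IsTotallyComplex.mult_eq, w.norm_embedding_eq]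

omit [IsTotallyComplex F] in
theorem nuF_pos {d : F} (hd : d ≠ 0) : 0 < nuF d :=
  Finset.prod_pos fun w _ => by
    have := norm_pos_iff.mpr ((map_ne_zero w.embedding).mpr hd)
    positivity

include hE hσ hφ in
theorem trace_eq_sum_embedding (x : F) :
    ((Algebra.trace ℚ F x : ℚ) : ℝ) = ∑ w : InfinitePlace F, 2 * (w.embedding x).re := by
  have h1 := (isPairCM hE hσ hφ).trace (algebraMap F E x)
  have h2 : Algebra.trace ℚ E (algebraMap F E x) = 2 * Algebra.trace ℚ F x := by
    rw [← Algebra.trace_trace (S := F), Algebra.trace_algebraMap, hE, two_nsmul, map_add, two_mul]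
  rw [h2, Fintype.sum_sum_type] at h1
  simp only [Sum.elim_inl, Sum.elim_inr, RingHom.comp_apply, RingHom.coe_coe,
    AlgEquiv.coe_ringEquiv, AlgEquiv.commutes, hφ] at h1
  push_cast at h1
  linarith

include hE hσ hφ in
theorem thK_trG (u : F) (P : Xi F) (x : E) :
    thK φ σ t (trG u • P) x = eF F (u * Algebra.norm F x) * thK φ σ t P x := by
  have h1 : (fun w => (((trG u • P) w).z, ((trG u • P) w).y)) =
      fun w => ((P w).z + w.embedding u, (P w).y) := by
    funext w
    rw [(trG_smul u P w).1, (trG_smul u P w).2]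
  have h2 : ∀ w : InfinitePlace F, w.embedding u * φ w x * φ w (σ x) =
      w.embedding (u * Algebra.norm F x) := by
    intro w
    rw [← hφ w (u * _), map_mul (algebraMap F E), quad_norm hE hσ, map_mul, map_mul, hφ]
    ring
  rw [thK, h1, thK]
  have h3 := G_add (fun w : InfinitePlace F => w.embedding u) (fun w => ((P w).z, (P w).y)) t
    (jpair φ ((σ : E ≃+* E) : E →+* E) x)
  simp only at h3
  rw [h3, eF_apply, trace_eq_sum_embedding hE hσ hφ]
  congr 3
  funext w
  rw [← h2]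
  rfl

omit [IsTotallyComplex F] in
include hφ in
theorem thK_diG (ht : ∀ w, 0 < t w) (d : F) (hd : d ≠ 0) (P : Xi F) (x : E) :
    thK φ σ t (diG d hd • P) x = ((nuF d : ℝ) : ℂ)⁻¹ * thK φ σ t P (d⁻¹ • x) := by
  have h1 : (fun w => (((diG d hd • P) w).z, ((diG d hd • P) w).y)) =
      fun w => ((P w).z / w.embedding d ^ 2, (P w).y / ‖w.embedding d‖ ^ 2) := by
    funext w
    rw [(diG_smul d hd P w).1, (diG_smul d hd P w).2]
  rw [thK, h1, thK]
  have h3 := G_diag (d := fun w : InfinitePlace F => w.embedding d)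
    (fun w => (map_ne_zero _).mpr hd) (fun w => ((P w).z, (P w).y)) ht
    (jpair φ ((σ : E ≃+* E) : E →+* E) x)
  simp only at h3
  rw [h3]
  congr 1
  · rw [nuF, Finset.prod_inv_distrib, ofReal_inv]
  · congr 1
    funext w
    have h4 : ∀ y : E, φ w (d⁻¹ • y) = φ w y / w.embedding d := by
      intro y
      rw [Algebra.smul_def, map_mul, hφ, map_inv₀]
      ring
    have h5 : σ (d⁻¹ • x) = d⁻¹ • σ x := by
      rw [Algebra.smul_def, map_mul, AlgEquiv.commutes, ← Algebra.smul_def]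
    simp only [jpair_apply, RingHom.coe_coe, AlgEquiv.coe_ringEquiv, h5, h4]

open Classical in
/-- dilations of points -/
def diP (d : F) (P : Xi F) : Xi F := if hd : d ≠ 0 then diG d hd • P else P

omit [NumberField F] [IsTotallyComplex F] in
theorem diP_of_ne {d : F} (hd : d ≠ 0) (P : Xi F) : diP d P = diG d hd • P := by
  rw [diP, dif_pos hd]

/-- The theta kernel of a quadratic extension. -/
def kerNF (hE : finrank F E = 2) (hσ : σ ≠ 1)
    (hφ : ∀ w x, φ w (algebraMap F E x) = w.embedding x) (ht : ∀ w, 0 < t w) :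
    Kernel F E (Xi F) where
  q := Algebra.norm F
  B x y := Algebra.trace F E (x * σ y)
  e := eF F
  K := thK φ σ t
  tl u P := trG u • P
  dl := diP
  w P := weG F • P
  ν d := ((nuF d : ℝ) : ℂ)
  q_add := quad_norm_add hE hσ
  q_smul := quad_norm_smul hE hσ
  B_add x y z := by rw [add_mul, map_add]
  B_smul c x y := by rw [smul_mul_assoc, map_smul, smul_eq_mul]
  B_comm x y := by
    rw [← quad_trace_conj hE hσ (x * σ y), map_mul, quad_invol hE hσ, mul_comm]
  K_tl := thK_trG hE hσ hφ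
  K_dl d hd P x := by
    rw [diP_of_ne hd]
    exact thK_diG hφ ht d hd P x
  w_w := weG_weG

theorem kerNF_act (ht : ∀ w, 0 < t w) {γ : GL (Fin 2) F} {a b c d : F}
    (hγ : (γ : Matrix (Fin 2) (Fin 2) F) = !![a, b; c, d]) (det : a * d - b * c = 1) (hd : d ≠ 0)
    (P : Xi F) : (kerNF hE hσ hφ ht).act b c d P = γ • P := by
  rw [← bruhat_smul hγ det hd]
  change trG (b / d) • diP d _ = _
  rw [diP_of_ne hd]
  rfl

/-! ### Lattices -/

/-- A full lattice in a number field. -/
structure IsLat (Λ : Submodule ℤ E) : Prop where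
  inner : ∃ n : ℕ, n ≠ 0 ∧ ∀ x : E, IsIntegral ℤ x → (n : E) * x ∈ Λ
  outer : ∃ n : ℕ, n ≠ 0 ∧ ∀ x ∈ Λ, IsIntegral ℤ ((n : E) * x)

theorem IsLat.isLattice {Λ : Submodule ℤ E} (h : IsLat Λ) : Submodule.IsLattice ℚ Λ where
  fg := by
    obtain ⟨n, hn, h1⟩ := h.outer
    let f : Λ →ₗ[ℤ] 𝓞 E :=
      { toFun := fun x => ⟨(n : E) * x, h1 x x.2⟩
        map_add' := fun x y => by
          apply RingOfIntegers.ext
          change (n : E) * ((x : E) + y) = (n : E) * x + (n : E) * y
          ring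
        map_smul' := fun c x => by
          apply RingOfIntegers.ext
          change (n : E) * (c • (x : E)) = ((c • (⟨(n : E) * x, h1 x x.2⟩ : 𝓞 E) : 𝓞 E) : E)
          rw [zsmul_eq_mul, zsmul_eq_mul]
          push_cast
          change _ = (c : E) * ((n : E) * x)
          ring }
    have hf : Function.Injective f := by
      intro x y hxy
      have h2 : (n : E) * x = (n : E) * y := congrArg (fun z : 𝓞 E => (z : E)) hxy
      exact Subtype.ext (mul_left_cancel₀ (Nat.cast_ne_zero.mpr hn) h2)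
    have : Module.Finite ℤ Λ := Module.Finite.of_injective f hf
    exact Module.Finite.iff_fg.mp this
  span_eq_top := by
    obtain ⟨n, hn, h1⟩ := h.inner
    rw [eq_top_iff]
    intro x _
    obtain ⟨m, hm, h2⟩ := ((IsFractionRing.isAlgebraic_iff ℤ ℚ E).mpr
      (Algebra.IsAlgebraic.isAlgebraic (R := ℚ) x)).exists_integral_multiple
    have h3 := h1 _ h2
    have h4 : x = ((n : ℚ) * (m : ℚ))⁻¹ • ((n : E) * (m • x)) := by
      have hn' : (n : E) ≠ 0 := Nat.cast_ne_zero.mpr hn
      have hm' : (m : E) ≠ 0 := Int.cast_ne_zero.mpr hm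
      rw [Algebra.smul_def, zsmul_eq_mul]
      simp only [map_inv₀, map_mul, map_natCast, map_intCast]
      field_simp
    rw [h4]
    exact Submodule.smul_mem _ _ (Submodule.subset_span h3)

theorem IsLat.exists_basis {Λ : Submodule ℤ E} (h : IsLat Λ) :
    ∃ b : Basis (Fin (finrank ℚ E)) ℚ E, Λ = Submodule.span ℤ (Set.range b) := by
  have := h.isLattice
  have : Module.Free ℤ Λ := Submodule.IsLattice.free ℚ Λ
  let b := Module.Free.chooseBasis ℤ Λ
  let b' : Basis _ ℚ E := b.extendOfIsLattice ℚ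
  let e := Fintype.equivFinOfCardEq (finrank_eq_card_basis b').symm
  refine ⟨b'.reindex e, ?_⟩
  rw [Basis.range_reindex]
  have h1 : Set.range b' = Λ.subtype '' Set.range b := by
    rw [← Set.range_comp]
    congr 1
    funext i
    exact Module.Basis.extendOfIsLattice_apply ℚ b i
  rw [h1, ← Submodule.map_span, b.span_eq, Submodule.map_top, Submodule.range_subtype]

/-- The dual lattice for `Tr (x σ y)`. -/
def dualE (σ : E ≃ₐ[F] E) (Λ : Submodule ℤ E) : Submodule ℤ E :=
  (twForm ((σ : E ≃+* E) : E →+* E)).dualSubmodule Λ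

omit [IsTotallyComplex F] in
theorem trace_conj (σ : E ≃ₐ[F] E) (x : E) : Algebra.trace ℚ E (σ x) = Algebra.trace ℚ E x :=
  Algebra.trace_eq_of_algEquiv (σ.restrictScalars ℚ) x

omit [IsTotallyComplex F] in
include hE hσ in
theorem trace_mul_conj (x y : E) : Algebra.trace ℚ E (x * σ y) = Algebra.trace ℚ E (y * σ x) := by
  rw [← trace_conj σ (x * σ y)]
  congr 1
  rw [map_mul, quad_invol hE hσ, mul_comm]

omit [IsTotallyComplex F] in
include hE hσ in
theorem mem_dualE {Λ : Submodule ℤ E} {y : E} : y ∈ dualE σ Λ ↔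
    ∀ x ∈ Λ, ∃ n : ℤ, (n : ℚ) = Algebra.trace ℚ E (x * σ y) := by
  rw [dualE, LinearMap.BilinForm.mem_dualSubmodule]
  refine forall₂_congr fun x _ => ?_
  rw [Submodule.mem_one, twForm_apply]
  have h1 : Algebra.trace ℚ E (y * ((σ : E ≃+* E) : E →+* E) x) =
      Algebra.trace ℚ E (x * σ y) := trace_mul_conj hE hσ y x
  rw [h1]
  rfl

include hE hσ hφ in
theorem summable_thK (ht : ∀ w, 0 < t w) {Λ : Submodule ℤ E} (hΛ : IsLat Λ) (P : Xi F) (s : E) :
    Summable fun x : Λ => thK φ σ t P (s + x) := by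
  obtain ⟨b, hb⟩ := hΛ.exists_basis
  have h1 := summable_G_nf (σ := (σ : E ≃+* E)) (quad_invol hE hσ) (isPairCM hE hσ hφ) hb
    (P := fun w => ((P w).z, (P w).y)) (fun w => (P w).y_pos) ht
    (jpair φ ((σ : E ≃+* E) : E →+* E) s)
  refine h1.congr fun x => ?_
  rw [thK, map_add]

theorem kerNF_poisson (ht : ∀ w, 0 < t w) {Λ : Submodule ℤ E} (hΛ : IsLat Λ) :
    ∃ C : ℂ, (kerNF hE hσ hφ ht).Poisson Λ.toAddSubgroup (dualE σ Λ).toAddSubgroup C := by
  obtain ⟨b, hb⟩ := hΛ.exists_basis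
  obtain ⟨C, hC, h1⟩ := exists_hasSum_G_nf (σ := (σ : E ≃+* E)) (quad_invol hE hσ)
    (isPairCM hE hσ hφ) hb
  refine ⟨(C : ℂ), fun P s => ⟨summable_thK hE hσ hφ ht hΛ (weG F • P) s, ?_⟩⟩
  have h2 := h1 (P := fun w => (((weG F • P) w).z, ((weG F • P) w).y)) (fun w => H3.y_pos _) ht
    (jpair φ ((σ : E ≃+* E) : E →+* E) s)
  have h3 : (∑' x : Λ, G (fun w => (((weG F • P) w).z, ((weG F • P) w).y)) t
      (jpair φ ((σ : E ≃+* E) : E →+* E) s + jpair φ ((σ : E ≃+* E) : E →+* E) x)) =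
      ∑' u : Λ.toAddSubgroup, (kerNF hE hσ hφ ht).K ((kerNF hE hσ hφ ht).w P) (s + u) := by
    refine tsum_congr fun x => ?_
    rw [← map_add]
    rfl
  rw [h3] at h2
  refine h2.congr_fun ?_
  intro y
  have h4 : (fun i => wpt ((fun w => (((weG F • P) w).z, ((weG F • P) w).y)) i)) =
      fun w => ((P w).z, (P w).y) := by
    funext w
    simp only
    rw [weG_smul]
    exact wpt_wpt (P := ((P w).z, (P w).y)) (P w).y_pos
  rw [h4]
  change (C : ℂ) * eF F (Algebra.trace F E (s * σ y)) * thK φ σ t P y = _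
  rw [mul_assoc, mul_comm (eF F _), eF_trace, eF_apply]
  congr 3
  have h5 := ((isPairCM hE hσ hφ).isRealModel (σ := (σ : E ≃+* E)) (quad_invol hE hσ)).map y s
  rw [← swapB_eq, h5, twForm_apply]
  exact congrArg _ (trace_mul_conj hE hσ s y)

/-- The conditions of the transformation law. -/
structure Cond (σ : E ≃ₐ[F] E) (a b c d : F) (h : E) (Λ Λ₂ : Submodule ℤ E) : Prop where
  det : a * d - b * c = 1
  d0 : d ≠ 0
  c1 : ∀ x ∈ Λ₂, algebraMap F E d * x ∈ Λ
  c2 : ∀ x ∈ Λ, algebraMap F E a * x ∈ Λ₂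
  c3 : ∀ y, (∀ x ∈ Λ₂, ∃ n : ℤ, (n : ℚ) = Algebra.trace ℚ E (x * σ y)) → algebraMap F E c * y ∈ Λ
  c4 : ∀ x ∈ Λ, ∀ y ∈ Λ₂, IsIntegral ℤ (algebraMap F E b * (x * σ y))
  c5 : ∀ x ∈ Λ₂, IsIntegral ℤ (b * d * Algebra.norm F x)
  c6 : ∀ y, (∀ x ∈ Λ₂, ∃ n : ℤ, (n : ℚ) = Algebra.trace ℚ E (x * σ y)) →
    IsIntegral ℤ (a * c * Algebra.norm F y)
  c7 : IsIntegral ℤ (b * d * Algebra.norm F h)
  c8 : ∀ x ∈ Λ, IsIntegral ℤ (algebraMap F E b * (h * σ x))

include hE hσ hφ in
/-- **Eichler's transformation law** over a quadratic extension of a totally complex field. -/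
theorem law (ht : ∀ w, 0 < t w) {a b c d : F} {h : E} {Λ Λ₂ : Submodule ℤ E}
    (hΛ₂ : IsLat Λ₂) (H : Cond σ a b c d h Λ Λ₂) {ρ : Type*} [Fintype ρ] {r : ρ → E}
    (hr1 : ∀ i, r i ∈ Λ) (hr2 : ∀ x ∈ Λ, ∃ i, ∃ m ∈ Λ₂, x = r i + algebraMap F E d * m)
    (hr3 : ∀ i j, (∃ m ∈ Λ₂, r i - r j = algebraMap F E d * m) → i = j)
    {γ : GL (Fin 2) F} (hγ : (γ : Matrix (Fin 2) (Fin 2) F) = !![a, b; c, d]) (P : Xi F) :
    Summable (fun x : Λ => thK φ σ t (γ • P) (algebraMap F E d * h + x)) ∧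
    ∑' x : Λ, thK φ σ t (γ • P) (algebraMap F E d * h + x) =
      ((nuF d : ℝ) : ℂ)⁻¹ * (∑ i, eF F (b * Algebra.norm F (r i) / d)) *
        ∑' x : Λ₂, thK φ σ t P (h + x) := by
  obtain ⟨C, hC⟩ := kerNF_poisson hE hσ hφ ht hΛ₂
  have hs : ∀ (u : F) (x : E), u • x = algebraMap F E u * x := fun u x => Algebra.smul_def u x
  have hA : (kerNF hE hσ hφ ht).Adm a b c d h Λ.toAddSubgroup Λ₂.toAddSubgroup
      (dualE σ Λ₂).toAddSubgroup := by
    constructor
    · exact H.det
    · exact H.d0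
    · intro x hx
      rw [hs]
      exact H.c1 x hx
    · intro x hx
      rw [hs]
      exact H.c2 x hx
    · intro y hy
      rw [hs]
      exact H.c3 y ((mem_dualE hE hσ).mp hy)
    · intro x hx y hy
      obtain ⟨n, hn⟩ := (mem_dualE hE hσ).mp hy x hx
      change eF F (Algebra.trace F E (x * σ y)) = 1
      rw [eF_trace]
      exact eF_of_trace hn.symm
    · intro x hx y hy
      change eF F (b * Algebra.trace F E (x * σ y)) = 1
      rw [← smul_eq_mul, ← map_smul, hs]
      exact eF_trace_of_isIntegral (H.c4 x hx y hy)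
    · intro x hx
      exact eF_of_isIntegral (H.c5 x hx)
    · intro y hy
      exact eF_of_isIntegral (H.c6 y ((mem_dualE hE hσ).mp hy))
    · exact eF_of_isIntegral H.c7
    · intro x hx
      change eF F (b * Algebra.trace F E (h * σ x)) = 1
      rw [← smul_eq_mul, ← map_smul, hs]
      exact eF_trace_of_isIntegral (H.c8 x hx)
  have hR : Kernel.Reps d Λ.toAddSubgroup Λ₂.toAddSubgroup r := by
    constructor
    · exact hr1
    · intro x hx
      obtain ⟨i, m, hm, h1⟩ := hr2 x hx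
      exact ⟨i, m, hm, by rw [hs]; exact h1⟩
    · rintro i j ⟨m, hm, h1⟩
      exact hr3 i j ⟨m, hm, by rw [hs] at h1; exact h1⟩
  have h1 := hA.law hR hC P
  rw [kerNF_act hE hσ hφ ht hγ H.det H.d0, hs] at h1
  exact h1

end NF

end Fermat.Agent.LT.Th
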