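import Fermat.Agent.LT.Th.GaussB

/-!
# Unramified Gauss sums: inert primes and the product formula
-/

set_option autoImplicit false
set_option linter.unusedSectionVars false

noncomputable section

open scoped BigOperators
open Ideal (absNorm)

namespace Fermat.Agent.LT.Th

namespace QD

section Field

/-- finite group lemma: Hilbert 90 for an involution and counting -/
theorem exists_mul_sbar {k : Type*} [Field k] [Finite k] (s : k →+* k)
    (hs : ∀ x, s (s x) = x) {α : k} (hα : s α ≠ α) {a : k} (ha : a ≠ 0) (hsa : s a = a) :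
    ∃ x, x ≠ 0 ∧ x * s x = a := by
  classical
  -- the two homomorphisms
  let S : kˣ →* kˣ := Units.map (s : k →* k)
  have hSS : ∀ x, S (S x) = x := fun x => Units.ext (hs x)
  let f : kˣ →* kˣ := (MonoidHom.id _) * S
  let g : kˣ →* kˣ := (MonoidHom.id _) / S
  have hf : ∀ x, f x = x * S x := fun x => rfl
  have hg : ∀ x, g x = x / S x := fun x => rfl
  have h1 : f.range ≤ g.ker := by
    rintro _ ⟨x, rfl⟩
    rw [MonoidHom.mem_ker, hg, hf, map_mul, hSS, mul_comm (S x) x, div_self']
  have h2 : f.ker = g.range := by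
    ext x
    rw [MonoidHom.mem_ker, hf]
    constructor
    · intro hx
      have hx' : (x : k) * s x = 1 := congrArg Units.val hx
      by_cases hall : ∀ θ : k, θ + x * s θ = 0
      · exfalso
        have h3 := hall 1
        rw [map_one, mul_one] at h3
        have h4 : (x : k) = -1 := by
          rw [add_comm] at h3
          exact eq_neg_of_add_eq_zero_left h3
        have h5 := hall α
        rw [h4, neg_one_mul, ← sub_eq_add_neg, sub_eq_zero] at h5
        exact hα h5.symm
      · push Not at hall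
        obtain ⟨θ, hθ⟩ := hall
        have h3 : (x : k) * s (θ + x * s θ) = θ + x * s θ := by
          rw [map_add, map_mul, hs, mul_add, ← mul_assoc, hx', one_mul, add_comm]
        refine ⟨Units.mk0 _ hθ, ?_⟩
        rw [hg, div_eq_iff_eq_mul]
        apply Units.ext
        rw [Units.val_mul]
        exact h3.symm
    · rintro ⟨y, rfl⟩
      rw [hg, map_div, hSS, div_mul_div_comm, mul_comm, div_self']
  have hcard : Nat.card f.range = Nat.card g.ker := by
    have h3 := f.ker.card_mul_index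
    have h4 := g.ker.card_mul_index
    rw [Subgroup.index_ker] at h3 h4
    rw [h2] at h3
    have h5 : 0 < Nat.card g.range := Nat.card_pos
    apply Nat.eq_of_mul_eq_mul_left h5
    rw [h3, mul_comm, h4]
  have h3 : f.range = g.ker :=
    SetLike.coe_injective (Set.eq_of_subset_of_ncard_le h1 (by
      rw [← Nat.card_coe_set_eq, ← Nat.card_coe_set_eq]
      exact hcard.ge) (Set.toFinite _))
  have h4 : Units.mk0 a ha ∈ g.ker := by
    rw [MonoidHom.mem_ker, hg, div_eq_one]
    exact Units.ext hsa.symm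
  rw [← h3] at h4
  obtain ⟨x, hx⟩ := h4
  exact ⟨x, x.ne_zero, congrArg Units.val hx⟩

theorem sum_eq_add_sum_units {K : Type*} [Field K] [Fintype K] [DecidableEq K] (G : K → ℂ) :
    ∑ x, G x = G 0 + ∑ u : Kˣ, G u := by
  rw [← Finset.add_sum_erase _ _ (Finset.mem_univ (0 : K))]
  congr 1
  symm
  refine Finset.sum_bij (fun (u : Kˣ) _ => (u : K)) ?_ ?_ ?_ ?_
  · intro u _
    exact Finset.mem_erase.mpr ⟨u.ne_zero, Finset.mem_univ _⟩
  · intro u _ w _ h
    exact Units.ext h
  · intro x hx
    exact ⟨Units.mk0 x (Finset.ne_of_mem_erase hx), Finset.mem_univ _, rfl⟩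
  · intro u _
    rfl

/-- the degree is two -/
theorem card_eq_sq {k k₀ : Type*} [Field k] [Field k₀] (s : k →+* k) (hs : ∀ x, s (s x) = x)
    {α : k} (hα : s α ≠ α) (i : k₀ →+* k) (hi : ∀ a, s (i a) = i a)
    (hfix : ∀ x, s x = x → ∃ a, i a = x) : Nat.card k = Nat.card k₀ ^ 2 := by
  have hα' : α - s α ≠ 0 := sub_ne_zero.mpr hα.symm
  rw [sq, ← Nat.card_prod]
  symm
  refine Nat.card_congr (Equiv.ofBijective (fun p : k₀ × k₀ => i p.1 + i p.2 * α) ⟨?_, ?_⟩)
  · rintro ⟨a, b⟩ ⟨a', b'⟩ h
    simp only at h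
    have h1 : i a + i b * s α = i a' + i b' * s α := by
      have := congrArg s h
      simpa only [map_add, map_mul, hi] using this
    have h2 : (i b - i b') * (α - s α) = 0 := by linear_combination h - h1
    have h3 : i b = i b' := by
      rcases mul_eq_zero.mp h2 with h3 | h3
      · exact sub_eq_zero.mp h3
      · exact absurd h3 hα'
    rw [h3] at h
    have h4 : i a = i a' := add_right_cancel h
    rw [i.injective h3, i.injective h4]
  · intro x
    have hα'' : s α - α ≠ 0 := sub_ne_zero.mpr hα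
    obtain ⟨b, hb⟩ := hfix ((x - s x) / (α - s α)) (by
      rw [map_div₀, map_sub, map_sub, hs, hs, div_eq_div_iff hα'' hα']
      ring)
    obtain ⟨a, ha⟩ := hfix (x - i b * α) (by
      rw [map_sub, map_mul, hi]
      have h1 : i b * (α - s α) = x - s x := by rw [hb, div_mul_cancel₀ _ hα']
      linear_combination h1)
    exact ⟨(a, b), by simp only [ha]; ring⟩

/-- the sum over a field of a function of the norm -/
theorem sum_norm {k k₀ : Type*} [Field k] [Field k₀] [Fintype k] [Fintype k₀] (s : k →+* k)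
    (hs : ∀ x, s (s x) = x) {α : k} (hα : s α ≠ α) (i : k₀ →+* k) (hi : ∀ a, s (i a) = i a)
    (hfix : ∀ x, s x = x → ∃ a, i a = x) (n : k →* k₀) (hn : ∀ x, i (n x) = x * s x)
    (F : k₀ → ℂ) (h0 : F 0 = 1) (hF : ∑ a, F a = 0) :
    ∑ x, F (n x) = -(Fintype.card k₀ : ℂ) := by
  classical
  have hn0 : n 0 = 0 := by
    apply i.injective
    rw [hn, zero_mul, map_zero]
  have hn0' : ∀ x, x ≠ 0 → n x ≠ 0 := by
    intro x hx h
    have := hn x
    rw [h, map_zero] at this
    rcases mul_eq_zero.mp this.symm with h1 | h1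
    · exact hx h1
    · exact hx ((map_eq_zero s).mp h1)
  let N : kˣ →* k₀ˣ := Units.map n
  have hN : Function.Surjective N := by
    intro a
    obtain ⟨x, hx, hxa⟩ := exists_mul_sbar s hs hα (a := i a) (by
      rw [map_ne_zero]; exact a.ne_zero) (hi a)
    refine ⟨Units.mk0 x hx, Units.ext (i.injective ?_)⟩
    change i (n x) = i a
    rw [hn, hxa]
  have hc : ∀ y : k₀ˣ, (Finset.univ.filter fun x => N x = y).card =
      (Finset.univ.filter fun x => N x = 1).card := by
    intro y
    exact MonoidHom.card_fiber_eq_of_mem_range N (hN y) (hN 1)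
  set c := (Finset.univ.filter fun x => N x = 1).card with hcdef
  have hcc : Fintype.card kˣ = Fintype.card k₀ˣ * c := by
    rw [← Finset.card_univ, Finset.card_eq_sum_card_fiberwise (t := Finset.univ)
      (f := N) (fun _ _ => Finset.mem_coe.mpr (Finset.mem_univ _))]
    rw [Finset.sum_congr rfl fun y _ => hc y, Finset.sum_const, Finset.card_univ, smul_eq_mul]
  have hsum : ∑ x : kˣ, F (n x) = (c : ℂ) * ∑ a : k₀ˣ, F a := by
    rw [Finset.mul_sum, ← Finset.sum_fiberwise (s := Finset.univ) (g := N)]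
    refine Finset.sum_congr rfl fun y _ => ?_
    rw [Finset.sum_congr rfl (g := fun _ => F y), Finset.sum_const, hc y, nsmul_eq_mul]
    intro x hx
    have := congrArg Units.val (Finset.mem_filter.mp hx).2
    change F (n x) = F y
    rw [← this]
    rfl
  have hunits : ∑ a : k₀ˣ, F a = -1 := by
    have := sum_eq_add_sum_units F
    rw [hF, h0] at this
    linear_combination -this
  have hk : Nat.card k = Nat.card k₀ ^ 2 := card_eq_sq s hs hα i hi hfix
  rw [Nat.card_eq_fintype_card, Nat.card_eq_fintype_card] at hk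
  have hq : 1 < Fintype.card k₀ := Fintype.one_lt_card
  have hc1 : c = Fintype.card k₀ + 1 := by
    rw [Fintype.card_units, Fintype.card_units, hk] at hcc
    have h5 : Fintype.card k₀ ^ 2 - 1 = (Fintype.card k₀ - 1) * (Fintype.card k₀ + 1) := by
      obtain ⟨m, hm⟩ : ∃ m, Fintype.card k₀ = m + 1 := ⟨Fintype.card k₀ - 1, by omega⟩
      rw [hm, Nat.add_sub_cancel]
      have : (m + 1) ^ 2 = m * (m + 1 + 1) + 1 := by ring
      rw [this, Nat.add_sub_cancel]
    rw [h5] at hcc
    exact (Nat.eq_of_mul_eq_mul_left (by omega) hcc).symm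
  rw [sum_eq_add_sum_units, hn0, h0, hsum, hunits, hc1]
  push_cast
  ring

end Field

section Prime

variable {R R' : Type*} [CommRing R] [CommRing R'] [Algebra R R'] (q : QD R R') {v : Ideal R}

theorem per_e {e : AddChar R ℂ} (hcond : cond e = v) : Per v e := by
  intro x y h
  rw [← hcond] at h
  have : x = y + (x - y) := by ring
  rw [this, AddChar.map_add_eq_mul, eq_one_of_mem_cond h, mul_one]

theorem exists_sbar_ne (hun : q.dif ⊔ ex v = ⊤) (hv : ex (R' := R') v ≠ ⊤) :
    ∃ α, q.sbar v α ≠ α := by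
  by_contra h
  push Not at h
  apply hv
  rw [← hun, right_eq_sup]
  refine Ideal.span_le.mpr ?_
  rintro _ ⟨a, rfl⟩
  have := h (Ideal.Quotient.mk _ a)
  rw [sbar_mk, eq_comm, Ideal.Quotient.eq] at this
  exact this

theorem card_ex_inert (hv : v.IsMaximal) (hv' : (ex (R' := R') v).IsMaximal)
    (hun : q.dif ⊔ ex v = ⊤) : Nat.card (R' ⧸ ex (R' := R') v) = Nat.card (R ⧸ v) ^ 2 := by
  let := Ideal.Quotient.field v
  let := Ideal.Quotient.field (ex (R' := R') v)
  obtain ⟨α, hα⟩ := q.exists_sbar_ne hun hv'.ne_top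
  exact card_eq_sq (q.sbar v) q.sbar_sbar hα (abar R' v) q.sbar_abar
    fun x hx => q.exists_abar hun hx

/-- the Gauss sum at an inert prime -/
theorem gauss_inert (hv : v.IsMaximal) (hv' : (ex (R' := R') v).IsMaximal)
    (hun : q.dif ⊔ ex v = ⊤) {e : AddChar R ℂ} (hcond : cond e = v) [Fintype (R ⧸ v)]
    [Fintype (R' ⧸ ex (R' := R') v)] : gauss q (ex v) e = -(Fintype.card (R ⧸ v) : ℂ) := by
  let := Ideal.Quotient.field v
  let := Ideal.Quotient.field (ex (R' := R') v)
  obtain ⟨α, hα⟩ := q.exists_sbar_ne hun hv'.ne_top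
  have hper := per_e hcond
  have h0 : onQuot v e 0 = 1 := by
    rw [← map_zero (Ideal.Quotient.mk v), hper.onQuot_mk, AddChar.map_zero_eq_one]
  have hF : ∑ a, onQuot v e a = 0 := by
    rw [← qs_eq_onQuot]
    obtain ⟨r, hr⟩ : ∃ r, e r ≠ 1 := by
      by_contra h
      push Not at h
      apply hv.ne_top
      rw [← hcond, Ideal.eq_top_iff_one]
      exact fun r => h _
    have h1 := qs_add hper r
    have h2 : qs v (fun x => e (x + r)) = qs v e * e r := by
      unfold qs
      rw [Finset.sum_mul]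
      exact Finset.sum_congr rfl fun x _ => AddChar.map_add_eq_mul _ _ _
    rw [h2] at h1
    by_contra h3
    apply hr
    have h4 : qs v e * e r = qs v e * 1 := by rw [h1, mul_one]
    exact mul_left_cancel₀ h3 h4
  rw [← sum_norm (q.sbar v) q.sbar_sbar hα (abar R' v) q.sbar_abar
    (fun x hx => q.exists_abar hun hx) (q.nbar v) q.abar_nbar (onQuot v e) h0 hF, gauss,
    qs_eq_onQuot]
  refine Finset.sum_congr rfl fun x _ => ?_
  obtain ⟨x, rfl⟩ := Ideal.Quotient.mk_surjective x
  rw [(q.per_ex hcond).onQuot_mk, nbar_mk, hper.onQuot_mk]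

theorem comap_eq_of_le (hv : v.IsMaximal) {w : Ideal R'} (hw : w ≠ ⊤) (h : ex v ≤ w) {r : R}
    (hr : algebraMap R R' r ∈ w) : r ∈ v := by
  have h1 : w.comap (algebraMap R R') = v := by
    refine (hv.eq_of_le ?_ (Ideal.map_le_iff_le_comap.mp h)).symm
    intro h2
    apply hw
    rw [Ideal.eq_top_iff_one] at h2 ⊢
    simpa using h2
  rw [← h1]
  exact hr

theorem card_split (hv : v.IsMaximal) {w : Ideal R'} (hw : w ≠ ⊤) (h : ex v ≤ w)
    (hcop : w ⊔ q.cj w = ⊤) : Nat.card (R' ⧸ w) = Nat.card (R ⧸ v) := by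
  let j : (R ⧸ v) →+* (R' ⧸ w) := Ideal.Quotient.lift _ ((Ideal.Quotient.mk w).comp
    (algebraMap R R')) (by
      intro a ha
      rw [RingHom.comp_apply, Ideal.Quotient.eq_zero_iff_mem]
      exact h (Ideal.mem_map_of_mem _ ha))
  symm
  refine Nat.card_congr (Equiv.ofBijective j ⟨?_, ?_⟩)
  · rw [injective_iff_map_eq_zero]
    intro a ha
    obtain ⟨a, rfl⟩ := Ideal.Quotient.mk_surjective a
    have ha' : Ideal.Quotient.mk w (algebraMap R R' a) = 0 := ha
    rw [Ideal.Quotient.eq_zero_iff_mem] at ha' ⊢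
    exact comap_eq_of_le hv hw h ha'
  · intro x
    obtain ⟨x, rfl⟩ := Ideal.Quotient.mk_surjective x
    obtain ⟨a, ha, b, hb, hab⟩ := Submodule.mem_sup.mp ((Ideal.eq_top_iff_one _).mp hcop)
    refine ⟨Ideal.Quotient.mk v (q.tr (x * b)), ?_⟩
    change Ideal.Quotient.mk w (algebraMap R R' (q.tr (x * b))) = Ideal.Quotient.mk w x
    rw [Ideal.Quotient.eq, q.tr_alg]
    have h1 : x * b + q.σ (x * b) - x = q.σ x * q.σ b - x * a := by
      have : b = 1 - a := by rw [← hab]; ring
      rw [map_mul]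
      rw [this]
      ring
    rw [h1]
    exact w.sub_mem (w.mul_mem_left _ (q.mem_cj.mp hb)) (w.mul_mem_left _ ha)

theorem inert_or_split [IsDedekindDomain R'] (hv : v.IsMaximal) (hun : q.dif ⊔ ex v = ⊤) :
    (ex (R' := R') v).IsMaximal ∨ ∃ w : Ideal R', w.IsMaximal ∧ ex v ≤ w ∧ w ⊔ q.cj w = ⊤ ∧
      w * q.cj w = ex v := by
  obtain ⟨w, hw, hvw⟩ := Ideal.exists_le_maximal _ (q.ex_ne_top (R' := R') hv.ne_top)
  have hcj : (q.cj w).IsMaximal := by
    refine ⟨⟨?_, ?_⟩⟩
    · intro h
      apply hw.ne_top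
      rw [← q.cj_cj w, h, q.cj_top]
    · intro I hI
      have h1 : w < q.cj I := by
        refine lt_of_le_of_ne ?_ ?_
        · rw [← q.cj_cj w]
          exact q.cj_le hI.le
        · intro h
          apply hI.ne
          rw [h, q.cj_cj]
      have h2 := hw.1.2 _ h1
      rw [← q.cj_cj I, h2, q.cj_top]
  have hle : w ⊓ q.cj w ≤ ex v := by
    intro x hx
    apply q.mem_ex_of_tr hun
    intro y
    apply comap_eq_of_le hv hw.ne_top hvw
    rw [q.tr_alg]
    refine w.add_mem (w.mul_mem_right _ hx.1) ?_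
    rw [map_mul]
    exact w.mul_mem_right _ (q.mem_cj.mp hx.2)
  by_cases h : w = q.cj w
  · left
    rw [← h, inf_idem] at hle
    rw [le_antisymm hvw hle]
    exact hw
  · right
    have hcop : w ⊔ q.cj w = ⊤ := hw.coprime_of_ne hcj h
    refine ⟨w, hw, hvw, hcop, ?_⟩
    rw [Ideal.mul_eq_inf_of_isCoprime (Ideal.isCoprime_iff_sup_eq.mpr hcop)]
    refine le_antisymm hle (le_inf hvw ?_)
    rw [← q.cj_ex v]
    exact q.cj_le hvw

end Prime

section Main

variable {R R' : Type*} [CommRing R] [CommRing R'] [Algebra R R'] (q : QD R R')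
  [IsDedekindDomain R] [IsDedekindDomain R'] [Module.Free ℤ R] [Module.Finite ℤ R]
  [Module.Free ℤ R'] [Module.Finite ℤ R']

open Classical in
/-- the sign of a prime -/
def sgn (R' : Type*) [CommRing R'] [Algebra R R'] (v : Ideal R) : ℂ :=
  if (ex (R' := R') v).IsMaximal then -1 else 1

/-- the sign of an ideal -/
def chi (R' : Type*) [CommRing R'] [Algebra R R'] (D : Ideal R) : ℂ :=
  ((UniqueFactorizationMonoid.normalizedFactors D).map (sgn R')).prod

theorem chi_mul {C D : Ideal R} (hC : C ≠ ⊥) (hD : D ≠ ⊥) :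
    chi R' (C * D) = chi R' C * chi R' D := by
  rw [chi, UniqueFactorizationMonoid.normalizedFactors_mul (by simpa using hC) (by simpa using hD),
    Multiset.map_add, Multiset.prod_add]
  rfl

theorem chi_top : chi R' (⊤ : Ideal R) = 1 := by
  rw [chi, ← Ideal.one_eq_top, UniqueFactorizationMonoid.normalizedFactors_one,
    Multiset.map_zero, Multiset.prod_zero]

theorem chi_prime {v : Ideal R} (hv : v.IsMaximal) (hv0 : v ≠ ⊥) : chi R' v = sgn R' v := by
  rw [chi, UniqueFactorizationMonoid.normalizedFactors_irreducible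
    (Ideal.prime_of_isPrime hv0 hv.isPrime).irreducible, normalize_eq, Multiset.map_singleton,
    Multiset.prod_singleton]

theorem card_quot_eq {A : Type*} [CommRing A] [IsDedekindDomain A] [Module.Free ℤ A]
    (I : Ideal A) [Fintype (A ⧸ I)] : Fintype.card (A ⧸ I) = absNorm I := by
  rw [Ideal.absNorm_apply, ← Nat.card_eq_fintype_card]
  rfl

theorem nat_card_quot_eq {A : Type*} [CommRing A] [IsDedekindDomain A] [Module.Free ℤ A]
    (I : Ideal A) : Nat.card (A ⧸ I) = absNorm I := rfl


/-- finiteness of quotients -/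
@[instance_reducible]
def fintypeQuot {A : Type*} [CommRing A]
    [IsDedekindDomain A] [Module.Free ℤ A] [Module.Finite ℤ A] {I : Ideal A} (hI : I ≠ ⊥) :
    Fintype (A ⧸ I) := @Fintype.ofFinite _ (Ideal.finiteQuotientOfFreeOfNeBot I hI)

include q in
theorem ex_ne_bot {D : Ideal R} (hD : D ≠ ⊥) : ex (R' := R') D ≠ ⊥ := by
  intro h
  apply hD
  rw [eq_bot_iff]
  intro x hx
  have h1 : algebraMap R R' x ∈ ex D := Ideal.mem_map_of_mem _ hx
  rw [h, Ideal.mem_bot] at h1
  rw [Ideal.mem_bot]
  exact q.inj (by rw [h1, map_zero])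

theorem cj_ne_bot {J : Ideal R'} (hJ : J ≠ ⊥) : q.cj J ≠ ⊥ := by
  intro h
  apply hJ
  rw [← q.cj_cj J, h]
  exact Ideal.map_bot

/-- peeling, with norms -/
theorem exists_peel' {e : AddChar R ℂ} {C D D₂ : Ideal R} {J : Ideal R'} (hD : D = C * D₂)
    (hJ : J ≠ ⊥) (hD₂ : D₂ ≠ ⊥) (hC : J * q.cj J = ex C) (hcond : cond e = D)
    (hun : q.dif ⊔ ex D = ⊤) [Fintype (R' ⧸ ex (R' := R') D)]
    [Fintype (R' ⧸ ex (R' := R') D₂)] :
    ∃ e₂ : AddChar R ℂ, cond e₂ = D₂ ∧
      gauss q (ex D) e = (absNorm (q.cj J) : ℂ) * gauss q (ex D₂) e₂ := by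
  classical
  have h1 : ex (R' := R') D₂ ≠ ⊥ := q.ex_ne_bot hD₂
  have h2 : q.cj J * ex D₂ ≠ ⊥ :=
    mul_ne_zero (by simpa using q.cj_ne_bot hJ) (by simpa using h1)
  have := fintypeQuot h2
  obtain ⟨e₂, he₂, h3⟩ := q.exists_peel hD hJ h1 hC hcond hun
  refine ⟨e₂, he₂, ?_⟩
  rw [card_quot_eq, card_quot_eq, map_mul] at h3
  have h4 : (absNorm (ex (R' := R') D₂) : ℂ) ≠ 0 := by
    have : absNorm (ex (R' := R') D₂) ≠ 0 := by
      rw [Ne, Ideal.absNorm_eq_zero_iff]; exact h1
    exact_mod_cast this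
  apply mul_left_cancel₀ h4
  rw [h3]
  push_cast
  ring

/-- **The value of the unramified Gauss sum.** -/
theorem gauss_eq {D : Ideal R} (hD : D ≠ ⊥) (hun : q.dif ⊔ ex D = ⊤) {e : AddChar R ℂ}
    (hcond : cond e = D) [Fintype (R' ⧸ ex (R' := R') D)] :
    gauss q (ex D) e = (absNorm D : ℂ) * chi R' D := by
  classical
  induction hn : absNorm D using Nat.strong_induction_on generalizing D e with
  | _ n ih =>
  by_cases htop : D = ⊤
  · subst htop
    have h1 : ex (R' := R') (⊤ : Ideal R) = ⊤ := Ideal.map_top _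
    have h2 : ∀ x, e (q.nm x) = 1 := fun x => eq_one_of_mem_cond (hcond.symm ▸ trivial)
    rw [gauss, qs_congr (g := fun _ => 1) h2, chi_top, mul_one, ← hn]
    unfold qs
    rw [Finset.sum_const, Finset.card_univ, card_quot_eq, h1, Ideal.absNorm_top,
      Ideal.absNorm_top]
    simp
  · obtain ⟨v, hv, hDv⟩ := Ideal.exists_le_maximal D htop
    obtain ⟨D', hD'⟩ : v ∣ D := Ideal.dvd_iff_le.mpr hDv
    have hv0 : v ≠ ⊥ := by
      rintro rfl
      exact hD (eq_bot_iff.mpr hDv)
    have hD'0 : D' ≠ ⊥ := by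
      rintro rfl
      apply hD
      rw [hD', Ideal.mul_bot]
    have hunv : q.dif ⊔ ex v = ⊤ := q.un_mono hun hDv
    have hunD' : q.dif ⊔ ex D' = ⊤ := q.un_mono hun (hD' ▸ Ideal.mul_le_right)
    have hNv : 1 < absNorm v := by
      have h1 : absNorm v ≠ 0 := by
        rw [Ne, Ideal.absNorm_eq_zero_iff]; exact hv0
      have h2 : absNorm v ≠ 1 := by
        rw [Ne, Ideal.absNorm_eq_one_iff]; exact hv.ne_top
      omega
    have hND' : 0 < absNorm D' := Nat.pos_of_ne_zero (by
      rw [Ne, Ideal.absNorm_eq_zero_iff]; exact hD'0)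
    have hND : absNorm D = absNorm v * absNorm D' := by rw [hD', map_mul]
    have hlt : absNorm D' < n := by
      rw [← hn, hND]
      nlinarith
    have hfD' := fintypeQuot (q.ex_ne_bot hD'0)
    have hfv := fintypeQuot (q.ex_ne_bot hv0)
    have hfv' := fintypeQuot hv0
    rcases q.inert_or_split hv hunv with hin | ⟨w, hw, hvw, hcop, hsp⟩
    · -- inert
      have hsgn : sgn R' v = -1 := if_pos hin
      by_cases hdvd : v ∣ D'
      · obtain ⟨D'', hD''⟩ := hdvd
        have hD''0 : D'' ≠ ⊥ := by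
          rintro rfl
          apply hD'0
          rw [hD'', Ideal.mul_bot]
        have hunD'' : q.dif ⊔ ex D'' = ⊤ := q.un_mono hunD' (hD'' ▸ Ideal.mul_le_right)
        have hfD'' := fintypeQuot (q.ex_ne_bot hD''0)
        have hND'' : absNorm D' = absNorm v * absNorm D'' := by rw [hD'', map_mul]
        have hlt'' : absNorm D'' < n := by
          refine lt_trans ?_ hlt
          rw [hND'']
          have : 0 < absNorm D'' := Nat.pos_of_ne_zero (by
            rw [Ne, Ideal.absNorm_eq_zero_iff]; exact hD''0)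
          nlinarith
        obtain ⟨e₂, he₂, h1⟩ := q.exists_peel' (C := v * v) (D := D) (D₂ := D'')
          (J := ex v) (by rw [hD', hD'', mul_assoc]) (q.ex_ne_bot hv0) hD''0
          (by rw [q.cj_ex, ex_mul]) hcond hun
        rw [h1, ih _ hlt'' hD''0 hunD'' he₂ rfl, q.cj_ex, ← nat_card_quot_eq,
          q.card_ex_inert hv hin hunv, hD', hD'', chi_mul hv0 (by
            exact mul_ne_zero (by simpa using hv0) (by simpa using hD''0)),
          chi_mul hv0 hD''0, chi_prime hv hv0, hsgn, ← hn, hND, hND'', nat_card_quot_eq]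
        push_cast
        ring
      · have hcop : IsCoprime v D' := by
          rw [Ideal.isCoprime_iff_sup_eq]
          by_contra h
          have h2 : v = v ⊔ D' := hv.eq_of_le h le_sup_left
          apply hdvd
          rw [Ideal.dvd_iff_le, h2]
          exact le_sup_right
        obtain ⟨e₁, e₂, he₁, he₂, h1⟩ := q.exists_crt hD' hcop hcond
        rw [h1, ih _ hlt hD'0 hunD' he₂ rfl, q.gauss_inert hv hin hunv he₁, card_quot_eq, hD',
          chi_mul hv0 hD'0, chi_prime hv hv0, hsgn, ← hn, hND]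
        push_cast
        ring
    · -- split
      have hw0 : w ≠ ⊥ := by
        rintro rfl
        exact q.ex_ne_bot hv0 (eq_bot_iff.mpr hvw)
      have hsgn : sgn R' v = 1 := by
        refine if_neg fun h => ?_
        have h1 : ex v = w := h.eq_of_le hw.ne_top hvw
        have h2 : q.cj w = w := by rw [← h1, q.cj_ex]
        rw [h2, sup_idem] at hcop
        exact hw.ne_top hcop
      have hcj : absNorm (q.cj w) = absNorm v := by
        rw [← nat_card_quot_eq, ← nat_card_quot_eq]
        refine q.card_split hv ?_ ?_ ?_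
        · intro h
          apply hw.ne_top
          rw [← q.cj_cj w, h, q.cj_top]
        · rw [← q.cj_ex v]
          exact q.cj_le hvw
        · rw [q.cj_cj, sup_comm]
          exact hcop
      obtain ⟨e₂, he₂, h1⟩ := q.exists_peel' (C := v) (D := D) (D₂ := D') (J := w) hD' hw0 hD'0
        hsp hcond hun
      rw [h1, ih _ hlt hD'0 hunD' he₂ rfl, hcj, hD', chi_mul hv0 hD'0, chi_prime hv hv0, hsgn,
        ← hn, hND]
      push_cast
      ring

end Main

end QD

end Fermat.Agent.LT.Th
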