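import Fermat.Agent.LT.Th.GaussNF
import Fermat.Agent.LT.Theta11.SNorm
import Fermat.Agent.LT.B11.Frame

/-!
# The Gauss sum of a tower: `N(D) η(D)` in terms of `rayVal`
-/

set_option autoImplicit false

noncomputable section

namespace Fermat.Agent.LT.Th.NF

open NumberField IsDedekindDomain
open Fermat.Agent.CFT.Places
open Fermat.Agent.CFT.Global (locPow)
open Fermat.Agent.LT.Th.QD Fermat.Agent.LT.Psi Fermat.Agent.LT.SAd Fermat.Agent.LT.B11
open Ideal (absNorm)

section Norm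

variable {F : Type*} [Field F] [NumberField F] {N : ℕ} [NeZero N]

/-- `absNorm (dId N d) = nR F N d` -/
theorem absNorm_dId_eq {d : Fˣ} (hd : (d : F) ∈ RS F N) :
    ((absNorm (dId N (d : F)) : ℕ) : ℝ) = nR F N d :=
  absNorm_dId (pl F N) (fun _ => mem_pl) hd

end Norm

section Tower

variable {F E M : Type} [Field F] [NumberField F] [Field E] [NumberField E] [Field M]
  [NumberField M] [Algebra F E] [Algebra E M] [Algebra F M] [IsScalarTower F E M]
  {N : ℕ} [NeZero N] (T : TowerData F E M (pl F N))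

include T

/-- the hypothesis `hN` of `gauss_eq_NF` -/
theorem tower_hN (w : HeightOneSpectrum (𝓞 E)) (hw : (N : 𝓞 E) ∉ w.asIdeal) :
    ∃ x : 𝓞 E, x - cI T.c x ∉ w.asIdeal := by
  have := T.galois_FE
  refine exists_sub_notMem T.c_ne_one (T.unr_FE w fun h => hw ?_)
  have h1 : algebraMap (𝓞 F) (𝓞 E) (N : 𝓞 F) ∈ w.asIdeal := mem_pl.mp h
  rwa [map_natCast] at h1

/-- the quadratic data of the tower -/
def qdT : QD (𝓞 F) (𝓞 E) :=
  haveI := T.galois_FE
  qd T.finrank_FE T.c_ne_one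

theorem qdT_nm (x : 𝓞 E) : algebraMap (𝓞 F) F ((qdT T).nm x) =
    Algebra.norm F (algebraMap (𝓞 E) E x) := rfl

/-- the sign at a place outside `N` -/
theorem chi_place {v : HeightOneSpectrum (𝓞 F)} (hv : (N : 𝓞 F) ∉ v.asIdeal) :
    chi (𝓞 E) v.asIdeal = ip (dbl (kum T.a v)) := by
  classical
  have := T.galois_FE
  obtain ⟨w, rfl⟩ := exists_below_eq E v
  have hw : (N : 𝓞 E) ∉ w.asIdeal := by
    intro h
    apply hv
    change algebraMap (𝓞 F) (𝓞 E) (N : 𝓞 F) ∈ w.asIdeal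
    rwa [map_natCast]
  rw [chi_asIdeal T.finrank_FE T.c_ne_one (tower_hN T w hw), ip_dbl]
  have h1 := T.conj_c_ne_iff (P := w) (fun h => hv (mem_pl.mp h))
  by_cases h : conj T.c w = w
  · rw [if_pos h, if_neg]
    rw [kum_eq_zero_iff, ← h1]
    exact fun h' => h' h
  · rw [if_neg h, if_pos]
    rw [kum_eq_zero_iff, ← h1]
    exact h

/-- **the sign of `dId N d`** -/
theorem chi_dId {d : Fˣ} (hd : (d : F) ∈ RS F N) :
    chi (𝓞 E) (dId N (d : F)) = ip (dbl (rayVal (pl F N) (kum T.a) d).toAdd) := by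
  let χ : Multiplicative (ZMod 2) →* ℂ :=
    { toFun := fun x => ip (dbl x.toAdd)
      map_one' := by
        change ip (dbl 0) = 1
        rw [ip_dbl, if_pos rfl]
      map_mul' := fun x y => by
        rw [toAdd_mul, map_add, ip_add] }
  exact mulFun_dId (N := N) (chi (𝓞 E)) (by rw [Ideal.one_eq_top]; exact chi_top)
    (fun I J hI hJ _ => chi_mul hI hJ) χ (kum T.a) (fun v hv => chi_place T hv) (pl F N)
    (fun _ => mem_pl) hd

/-- **The Gauss sum of the transformation law.** -/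
theorem gauss_tower {d : Fˣ} (hd : (d : F) ∈ RS F N)
    [Fintype (𝓞 E ⧸ (dId N (d : F)).map (algebraMap (𝓞 F) (𝓞 E)))] {e : AddChar (𝓞 F) ℂ}
    (he : cond e = dId N (d : F)) :
    gauss (qdT T) ((dId N (d : F)).map (algebraMap (𝓞 F) (𝓞 E))) e =
      ((nR F N d : ℝ) : ℂ) * ip (dbl (rayVal (pl F N) (kum T.a) d).toAdd) := by
  have := T.galois_FE
  obtain ⟨n, -, hc, hn⟩ := exists_natCast_mem_dId N (d : F)
  have h1 := gauss_eq_NF T.finrank_FE T.c_ne_one (tower_hN T) (dId_ne_bot N (d : F))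
    ⟨n, hc, hn⟩ he
  rw [qdT, h1, chi_dId T hd, ← absNorm_dId_eq hd]
  push_cast
  rfl

end Tower

end Fermat.Agent.LT.Th.NF
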