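import Mathlib

/-!
# Unramified Gauss sums of norm forms (algebraic part)
-/

set_option autoImplicit false

noncomputable section

open scoped BigOperators

namespace Fermat.Agent.LT.Th

/-- an involution of `R'` over `R` with norm and trace -/
structure QD (R R' : Type*) [CommRing R] [CommRing R'] [Algebra R R'] where
  /-- the involution -/
  σ : R' →+* R'
  /-- the norm -/
  nm : R' → R
  /-- the trace -/
  tr : R' → R
  inj : Function.Injective (algebraMap R R')
  σσ : ∀ x, σ (σ x) = x
  σ_alg : ∀ r, σ (algebraMap R R' r) = algebraMap R R' r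
  nm_alg : ∀ x, algebraMap R R' (nm x) = x * σ x
  tr_alg : ∀ x, algebraMap R R' (tr x) = x + σ x

namespace QD

variable {R R' : Type*} [CommRing R] [CommRing R'] [Algebra R R'] (q : QD R R')

theorem tr_add (x y : R') : q.tr (x + y) = q.tr x + q.tr y := by
  apply q.inj
  simp only [map_add, q.tr_alg]
  ring

theorem tr_smul (r : R) (x : R') : q.tr (algebraMap R R' r * x) = r * q.tr x := by
  apply q.inj
  simp only [map_mul, q.tr_alg, q.σ_alg]
  ring

theorem tr_zero : q.tr 0 = 0 := by
  apply q.inj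
  simp [q.tr_alg]

theorem tr_σ (x : R') : q.tr (q.σ x) = q.tr x := by
  apply q.inj
  simp only [q.tr_alg, q.σσ]
  ring

theorem nm_add (x y : R') : q.nm (x + y) = q.nm x + q.tr (x * q.σ y) + q.nm y := by
  apply q.inj
  simp only [map_add, map_mul, q.nm_alg, q.tr_alg, q.σσ]
  ring

theorem nm_mul (x y : R') : q.nm (x * y) = q.nm x * q.nm y := by
  apply q.inj
  simp only [map_mul, q.nm_alg]
  ring

theorem nm_smul (r : R) (x : R') : q.nm (algebraMap R R' r * x) = r ^ 2 * q.nm x := by
  apply q.inj
  simp only [map_mul, map_pow, q.nm_alg, q.σ_alg]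
  ring

theorem nm_of (r : R) : q.nm (algebraMap R R' r) = r ^ 2 := by
  apply q.inj
  simp only [map_pow, q.nm_alg, q.σ_alg]
  ring

theorem nm_zero : q.nm 0 = 0 := by
  apply q.inj
  simp [q.nm_alg]

/-- the trace form is integral on extended ideals -/
theorem tr_mem (D : Ideal R) {u : R'} (hu : u ∈ D.map (algebraMap R R')) (y : R') :
    q.tr (y * q.σ u) ∈ D := by
  revert y
  refine Submodule.span_induction (p := fun u _ => ∀ y, q.tr (y * q.σ u) ∈ D) ?_ ?_ ?_ ?_ hu
  · rintro _ ⟨d, hd, rfl⟩ y
    have : y * q.σ (algebraMap R R' d) = algebraMap R R' d * y := by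
      rw [q.σ_alg, mul_comm]
    have h1 : q.tr (y * q.σ (algebraMap R R' d)) ∈ D := by
      rw [this, q.tr_smul]
      exact D.mul_mem_right _ hd
    exact h1
  · intro y
    rw [map_zero, mul_zero, q.tr_zero]
    exact D.zero_mem
  · intro a b _ _ ha hb y
    rw [map_add, mul_add, q.tr_add]
    exact D.add_mem (ha y) (hb y)
  · intro r a _ ha y
    rw [smul_eq_mul, map_mul, ← mul_assoc]
    exact ha _

theorem nm_mem (D : Ideal R) {u : R'} (hu : u ∈ D.map (algebraMap R R')) : q.nm u ∈ D := by
  refine Submodule.span_induction (p := fun u _ => q.nm u ∈ D) ?_ ?_ ?_ ?_ hu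
  · rintro _ ⟨d, hd, rfl⟩
    have h1 : q.nm (algebraMap R R' d) ∈ D := by
      rw [q.nm_of, sq]
      exact D.mul_mem_right _ hd
    exact h1
  · rw [q.nm_zero]
    exact D.zero_mem
  · intro a b _ hb ha' hb'
    rw [q.nm_add]
    exact D.add_mem (D.add_mem ha' (q.tr_mem D hb a)) hb'
  · intro r a _ ha
    rw [smul_eq_mul, q.nm_mul]
    exact D.mul_mem_left _ ha

end QD

/-- the conductor of an additive character -/
def cond {R : Type*} [CommRing R] (e : AddChar R ℂ) : Ideal R where
  carrier := {t | ∀ r, e (r * t) = 1}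
  add_mem' := by
    intro a b ha hb r
    rw [mul_add, AddChar.map_add_eq_mul, ha r, hb r, one_mul]
  zero_mem' := by
    intro r
    rw [mul_zero, AddChar.map_zero_eq_one]
  smul_mem' := by
    intro c x hx r
    rw [smul_eq_mul, ← mul_assoc]
    exact hx _

theorem mem_cond {R : Type*} [CommRing R] {e : AddChar R ℂ} {t : R} :
    t ∈ cond e ↔ ∀ r, e (r * t) = 1 := Iff.rfl

theorem eq_one_of_mem_cond {R : Type*} [CommRing R] {e : AddChar R ℂ} {t : R} (h : t ∈ cond e) :
    e t = 1 := by
  have := h 1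
  rwa [one_mul] at this

/-- the character `t ↦ e (c t)` -/
def twc {R : Type*} [CommRing R] (e : AddChar R ℂ) (c : R) : AddChar R ℂ where
  toFun t := e (c * t)
  map_zero_eq_one' := by rw [mul_zero, AddChar.map_zero_eq_one]
  map_add_eq_mul' := by intro a b; rw [mul_add, AddChar.map_add_eq_mul]

@[simp] theorem twc_apply {R : Type*} [CommRing R] (e : AddChar R ℂ) (c t : R) :
    twc e c t = e (c * t) := rfl

theorem mem_cond_twc {R : Type*} [CommRing R] {e : AddChar R ℂ} {c t : R} :
    t ∈ cond (twc e c) ↔ c * t ∈ cond e := by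
  rw [mem_cond, mem_cond]
  refine forall_congr' fun r => ?_
  rw [twc_apply, show c * (r * t) = r * (c * t) by ring]

section Sums

variable {R R' : Type*} [CommRing R] [CommRing R'] [Algebra R R'] (q : QD R R')

/-- sum over a quotient of a function on the ring -/
def qs {A : Type*} [CommRing A] (I : Ideal A) [Fintype (A ⧸ I)] (f : A → ℂ) : ℂ :=
  ∑ x : A ⧸ I, f (Quotient.out x)

/-- periodicity modulo an ideal -/
def Per {A : Type*} [CommRing A] (I : Ideal A) (f : A → ℂ) : Prop :=
  ∀ x y, x - y ∈ I → f x = f y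

theorem Per.out {A : Type*} [CommRing A] {I : Ideal A} {f : A → ℂ} (hf : Per I f) (x : A) :
    f (Quotient.out (Ideal.Quotient.mk I x)) = f x := by
  apply hf
  rw [← Ideal.Quotient.eq, Ideal.Quotient.mk_out]

theorem qs_congr {A : Type*} [CommRing A] {I : Ideal A} [Fintype (A ⧸ I)] {f g : A → ℂ}
    (h : ∀ x, f x = g x) : qs I f = qs I g := Finset.sum_congr rfl fun _ _ => h _

theorem qs_add {A : Type*} [CommRing A] {I : Ideal A} [Fintype (A ⧸ I)] {f : A → ℂ}
    (hf : Per I f) (y : A) : qs I (fun x => f (x + y)) = qs I f := by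
  have h1 : Per I (fun x => f (x + y)) := by
    intro a b hab
    apply hf
    rwa [add_sub_add_right_eq_sub]
  unfold qs
  refine Fintype.sum_equiv (Equiv.addRight (Ideal.Quotient.mk I y)) _ _ fun x => ?_
  obtain ⟨x, rfl⟩ := Ideal.Quotient.mk_surjective x
  have h2 : f (Quotient.out (Ideal.Quotient.mk I x) + y) = f (x + y) := h1.out x
  change f (Quotient.out (Ideal.Quotient.mk I x) + y) =
    f (Quotient.out (Ideal.Quotient.mk I x + Ideal.Quotient.mk I y))
  rw [h2, ← map_add, hf.out]

/-- the value of the Gauss sum of a norm form -/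
def gauss (I : Ideal R') [Fintype (R' ⧸ I)] (e : AddChar R ℂ) : ℂ := qs I fun x => e (q.nm x)

theorem per_nm {e : AddChar R ℂ} {D : Ideal R} (hD : D ≤ cond e) :
    Per (D.map (algebraMap R R')) fun x => e (q.nm x) := by
  intro x y h
  obtain ⟨u, rfl⟩ : ∃ u, x = y + u := ⟨x - y, by ring⟩
  rw [add_sub_cancel_left] at h
  change e (q.nm (y + u)) = e (q.nm y)
  rw [q.nm_add, AddChar.map_add_eq_mul, AddChar.map_add_eq_mul,
    eq_one_of_mem_cond (hD (q.tr_mem D h y)), eq_one_of_mem_cond (hD (q.nm_mem D h)), mul_one,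
    mul_one]

/-- **Stationary phase.** -/
theorem stationary {e : AddChar R ℂ} {I U : Ideal R'} [Fintype (R' ⧸ I)]
    (hper : Per I fun x => e (q.nm x))
    (htr : ∀ x, ∀ u ∈ I, e (q.tr (x * q.σ u)) = 1)
    (hU : ∀ u ∈ U, e (q.nm u) = 1) [DecidablePred fun x : R' => ∀ u ∈ U, e (q.tr (x * q.σ u)) = 1] :
    qs I (fun x => e (q.nm x)) =
      qs I (fun x => if ∀ u ∈ U, e (q.tr (x * q.σ u)) = 1 then e (q.nm x) else 0) := by
  classical
  -- the subgroup `U / I`
  let H : AddSubgroup (R' ⧸ I) := (U.map (Ideal.Quotient.mk I)).toAddSubgroup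
  have hH : ∀ h : H, ∃ u ∈ U, Ideal.Quotient.mk I u = h := by
    rintro ⟨h, hh⟩
    exact (Ideal.mem_map_iff_of_surjective _ Ideal.Quotient.mk_surjective).mp hh
  have hHfin : Fintype H := Fintype.ofFinite H
  have hpair : ∀ x u u', u - u' ∈ I → e (q.tr (x * q.σ u)) = e (q.tr (x * q.σ u')) := by
    intro x u u' h
    have h1 : u = u' + (u - u') := by ring
    rw [h1, map_add, mul_add, q.tr_add, AddChar.map_add_eq_mul, htr x _ h, mul_one]
  -- the character of `H` attached to `x`
  let ψ : R' → AddChar H ℂ := fun x =>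
    { toFun := fun h => e (q.tr (x * q.σ (Quotient.out (h : R' ⧸ I))))
      map_zero_eq_one' := by
        apply htr
        rw [← Ideal.Quotient.eq_zero_iff_mem, Ideal.Quotient.mk_out]
        rfl
      map_add_eq_mul' := by
        intro a b
        rw [← AddChar.map_add_eq_mul, ← q.tr_add, ← mul_add, ← map_add]
        apply hpair
        rw [← Ideal.Quotient.eq, Ideal.Quotient.mk_out, map_add, Ideal.Quotient.mk_out,
          Ideal.Quotient.mk_out]
        rfl }
  have hψ : ∀ x (h : H) u, Ideal.Quotient.mk I u = h → ψ x h = e (q.tr (x * q.σ u)) := by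
    intro x h u hu
    change e (q.tr (x * q.σ (Quotient.out (h : R' ⧸ I)))) = _
    apply hpair
    rw [← Ideal.Quotient.eq, Ideal.Quotient.mk_out, hu]
  have hψ0 : ∀ x, ψ x = 0 ↔ ∀ u ∈ U, e (q.tr (x * q.σ u)) = 1 := by
    intro x
    constructor
    · intro h u hu
      have hm : Ideal.Quotient.mk I u ∈ H := Ideal.mem_map_of_mem _ hu
      rw [← hψ x ⟨_, hm⟩ u rfl, h]
      rfl
    · intro h
      refine DFunLike.ext _ _ fun a => ?_
      obtain ⟨u, hu, hua⟩ := hH a
      rw [hψ x a u hua, h u hu]
      rfl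
  have hcard : (Fintype.card H : ℂ) ≠ 0 := by
    have : 0 < Fintype.card H := Fintype.card_pos_iff.mpr ⟨0⟩
    exact_mod_cast this.ne'
  have key : (Fintype.card H : ℂ) * qs I (fun x => e (q.nm x)) =
      (Fintype.card H : ℂ) *
        qs I (fun x => if ∀ u ∈ U, e (q.tr (x * q.σ u)) = 1 then e (q.nm x) else 0) := by
    calc (Fintype.card H : ℂ) * qs I (fun x => e (q.nm x))
        = ∑ h : H, qs I (fun x => e (q.nm x)) := by
          rw [Finset.sum_const, Finset.card_univ, nsmul_eq_mul]
      _ = ∑ h : H, qs I (fun x => e (q.nm x) * ψ x h) := by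
          refine Finset.sum_congr rfl fun h _ => ?_
          obtain ⟨u, hu, huh⟩ := hH h
          rw [← qs_add hper u]
          refine qs_congr fun x => ?_
          rw [q.nm_add, AddChar.map_add_eq_mul, AddChar.map_add_eq_mul, hU u hu, mul_one,
            hψ x h u huh]
      _ = qs I (fun x => e (q.nm x) * ∑ h : H, ψ x h) := by
          unfold qs
          rw [Finset.sum_comm]
          refine Finset.sum_congr rfl fun x _ => ?_
          beta_reduce
          rw [Finset.mul_sum]
      _ = _ := by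
          unfold qs
          rw [Finset.mul_sum]
          refine Finset.sum_congr rfl fun x _ => ?_
          beta_reduce
          rw [AddChar.sum_eq_ite]
          by_cases h : ∀ u ∈ U, e (q.tr (Quotient.out x * q.σ u)) = 1
          · rw [if_pos ((hψ0 _).mpr h), if_pos h]
            ring
          · rw [if_neg (fun h' => h ((hψ0 _).mp h')), if_neg h]
            ring
  exact mul_left_cancel₀ hcard key

end Sums

end Fermat.Agent.LT.Th
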