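import Fermat.Agent.LT.Th.GaussA

/-!
# Unramified Gauss sums of norm forms: the value

`R ⊂ R'` Dedekind domains with an involution `σ` of `R'` over `R`. For an additive character `e`
of `R` with conductor ideal `D` prime to the ideal generated by all `a - σ a`:
`∑_{x ∈ R'/DR'} e(N x) = N(D) ∏_{v | D} (±1)^{v(D)}`, the sign being `-1` iff `v R'` is prime.
-/

set_option autoImplicit false

noncomputable section

open scoped BigOperators
open Ideal (absNorm)

namespace Fermat.Agent.LT.Th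

/-! ### Sums over quotients -/

section Quot

variable {A : Type*} [CommRing A]

/-- a periodic function as a function on the quotient -/
def onQuot (I : Ideal A) (f : A → ℂ) (x : A ⧸ I) : ℂ := f (Quotient.out x)

theorem Per.onQuot_mk {I : Ideal A} {f : A → ℂ} (hf : Per I f) (x : A) :
    onQuot I f (Ideal.Quotient.mk I x) = f x := hf.out x

theorem qs_eq_onQuot {I : Ideal A} [Fintype (A ⧸ I)] (f : A → ℂ) :
    qs I f = ∑ x : A ⧸ I, onQuot I f x := rfl

theorem Per.mono {I J : Ideal A} {f : A → ℂ} (hf : Per J f) (h : I ≤ J) : Per I f :=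
  fun x y hxy => hf x y (h hxy)

/-- sums over a finer quotient -/
theorem qs_coarse {V W : Ideal A} [Fintype (A ⧸ V)] [Fintype (A ⧸ W)] (hVW : V ≤ W) {f : A → ℂ}
    (hf : Per W f) :
    (Fintype.card (A ⧸ W) : ℂ) * qs V f = (Fintype.card (A ⧸ V) : ℂ) * qs W f := by
  classical
  let π : (A ⧸ V) →+ (A ⧸ W) := (Ideal.Quotient.factor hVW).toAddMonoidHom
  have hπ : ∀ x, π (Ideal.Quotient.mk V x) = Ideal.Quotient.mk W x := fun x => rfl
  have hsurj : Function.Surjective π := Ideal.Quotient.factor_surjective hVW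
  have h1 : qs V f = ∑ x : A ⧸ V, onQuot W f (π x) := by
    rw [qs_eq_onQuot]
    refine Finset.sum_congr rfl fun x _ => ?_
    obtain ⟨x, rfl⟩ := Ideal.Quotient.mk_surjective x
    rw [hπ, hf.onQuot_mk, (hf.mono hVW).onQuot_mk]
  have h2 : ∀ y : A ⧸ W, (Finset.univ.filter fun x => π x = y).card =
      (Finset.univ.filter fun x => π x = 0).card := by
    intro y
    exact AddMonoidHom.card_fiber_eq_of_mem_range π (hsurj y) (hsurj 0)
  set c := (Finset.univ.filter fun x => π x = 0).card with hc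
  have h3 : Fintype.card (A ⧸ V) = Fintype.card (A ⧸ W) * c := by
    rw [← Finset.card_univ, Finset.card_eq_sum_card_fiberwise (t := Finset.univ)
      (f := π) (fun _ _ => Finset.mem_coe.mpr (Finset.mem_univ _))]
    rw [Finset.sum_congr rfl fun y _ => h2 y, Finset.sum_const, Finset.card_univ, smul_eq_mul]
  have h4 : ∑ x : A ⧸ V, onQuot W f (π x) = (c : ℂ) * qs W f := by
    rw [qs_eq_onQuot, Finset.mul_sum, ← Finset.sum_fiberwise (s := Finset.univ) (g := π)]
    refine Finset.sum_congr rfl fun y _ => ?_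
    rw [Finset.sum_congr rfl (g := fun _ => onQuot W f y), Finset.sum_const, h2 y, nsmul_eq_mul]
    intro x hx
    rw [(Finset.mem_filter.mp hx).2]
  rw [h1, h4, h3]
  push_cast
  ring

/-- scaling: the sum over `J / I` is a sum over `A / V` if `I = J V` and `J = (α) + I` -/
theorem qs_scale [IsDedekindDomain A] {I J V : Ideal A} [Fintype (A ⧸ I)] [Fintype (A ⧸ V)]
    (hJ : J ≠ ⊥) (hI : I = J * V) {α : A} (hα : I ⊔ Ideal.span {α} = J) {f : A → ℂ}
    (hf : Per I f) [DecidablePred (· ∈ J)] :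
    qs I (fun x => if x ∈ J then f x else 0) = qs V (fun y => f (α * y)) := by
  classical
  have hαJ : α ∈ J := by
    rw [← hα]
    exact Ideal.mem_sup_right (Ideal.mem_span_singleton_self α)
  have hIJ : I ≤ J := by rw [← hα]; exact le_sup_left
  have hαV : ∀ y ∈ V, α * y ∈ I := fun y hy => by
    rw [hI]; exact Ideal.mul_mem_mul hαJ hy
  -- `α y ∈ I → y ∈ V`
  have hker : ∀ y, α * y ∈ I → y ∈ V := by
    intro y hy
    obtain ⟨B, hB⟩ : J ∣ Ideal.span {α} := by
      rw [Ideal.dvd_iff_le, Ideal.span_singleton_le_iff_mem]; exact hαJ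
    have h1 : J * (V ⊔ B) = J * ⊤ := by
      rw [Ideal.mul_sup, ← hI, ← hB, hα, Ideal.mul_top]
    have h2 : V ⊔ B = ⊤ := mul_left_cancel₀ (a := J) (by simpa using hJ) h1
    have h3 : J * (B * Ideal.span {y}) ≤ J * V := by
      rw [← mul_assoc, ← hB, Ideal.span_singleton_mul_span_singleton, ← hI,
        Ideal.span_singleton_le_iff_mem]
      exact hy
    have h4 : B * Ideal.span {y} ≤ V := by
      rw [← Ideal.dvd_iff_le] at h3 ⊢
      exact (mul_dvd_mul_iff_left (a := J) (by simpa using hJ)).mp h3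
    have h5 : (V ⊔ B) * Ideal.span {y} ≤ V := by
      rw [Ideal.sup_mul]
      exact sup_le (Ideal.mul_le_right (I := Ideal.span {y}) (J := V) |> fun h => by rwa [mul_comm] at h) h4
    rw [h2, Ideal.top_mul, Ideal.span_singleton_le_iff_mem] at h5
    exact h5
  have hper2 : Per V (fun y => f (α * y)) := by
    intro x y hxy
    apply hf
    rw [← mul_sub]
    exact hαV _ hxy
  have hperJ : Per I (fun x => if x ∈ J then f x else 0) := by
    intro x y hxy
    have h1 : x ∈ J ↔ y ∈ J := by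
      constructor
      · intro hx
        have := J.sub_mem hx (hIJ hxy)
        rwa [sub_sub_cancel] at this
      · intro hy
        have := J.add_mem (hIJ hxy) hy
        rwa [sub_add_cancel] at this
    by_cases hy : y ∈ J
    · simp only [h1, hy, if_true]
      exact hf x y hxy
    · simp only [h1, hy, if_false]
  -- the map
  let φ : A ⧸ V → A ⧸ I := fun y => Ideal.Quotient.mk I (α * Quotient.out y)
  have hφ : ∀ y, φ (Ideal.Quotient.mk V y) = Ideal.Quotient.mk I (α * y) := by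
    intro y
    change Ideal.Quotient.mk I (α * Quotient.out (Ideal.Quotient.mk V y)) = _
    rw [Ideal.Quotient.eq, ← mul_sub]
    apply hαV
    rw [← Ideal.Quotient.eq, Ideal.Quotient.mk_out]
  have hφinj : Function.Injective φ := by
    intro x y hxy
    obtain ⟨x, rfl⟩ := Ideal.Quotient.mk_surjective x
    obtain ⟨y, rfl⟩ := Ideal.Quotient.mk_surjective y
    rw [hφ, hφ, Ideal.Quotient.eq, ← mul_sub] at hxy
    rw [Ideal.Quotient.eq]
    exact hker _ hxy
  symm
  rw [qs_eq_onQuot, qs_eq_onQuot]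
  refine Finset.sum_of_injOn φ hφinj.injOn (fun _ _ => Finset.mem_coe.mpr (Finset.mem_univ _))
    ?_ ?_
  · intro x _ hx
    obtain ⟨x, rfl⟩ := Ideal.Quotient.mk_surjective x
    rw [hperJ.onQuot_mk]
    refine if_neg fun hxJ => hx ?_
    rw [← hα] at hxJ
    obtain ⟨i, hi, z, hz, rfl⟩ := Submodule.mem_sup.mp hxJ
    obtain ⟨y, rfl⟩ := Ideal.mem_span_singleton'.mp hz
    refine ⟨Ideal.Quotient.mk V y, Finset.mem_coe.mpr (Finset.mem_univ _), ?_⟩
    rw [hφ, Ideal.Quotient.eq]
    have : α * y - (i + y * α) = -i := by ring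
    rw [this]
    exact I.neg_mem hi
  · intro y _
    obtain ⟨y, rfl⟩ := Ideal.Quotient.mk_surjective y
    rw [hφ, hper2.onQuot_mk, hperJ.onQuot_mk]
    exact (if_pos (J.mul_mem_right _ hαJ)).symm

/-- Chinese remainder theorem for sums -/
theorem qs_crt {I J K : Ideal A} [Fintype (A ⧸ I)] [Fintype (A ⧸ J)] [Fintype (A ⧸ K)]
    (hK : K = I * J) (hIJ : IsCoprime I J) {f g : A → ℂ} (hf : Per I f) (hg : Per J g) :
    qs K (fun x => f x * g x) = qs I f * qs J g := by
  subst hK
  have h1 : Per (I * J) fun x => f x * g x := by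
    intro x y hxy
    have h2 := hf x y (Ideal.mul_le_left hxy)
    have h3 := hg x y (Ideal.mul_le_right hxy)
    simp only [h2, h3]
  rw [qs_eq_onQuot, qs_eq_onQuot, qs_eq_onQuot, Finset.sum_mul_sum, ← Finset.sum_product',
    Finset.univ_product_univ]
  refine Fintype.sum_equiv (Ideal.quotientMulEquivQuotientProd I J hIJ).toEquiv _ _ fun x => ?_
  obtain ⟨x, rfl⟩ := Ideal.Quotient.mk_surjective x
  rw [h1.onQuot_mk]
  have h2 : ((Ideal.quotientMulEquivQuotientProd I J hIJ).toEquiv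
      (Ideal.Quotient.mk (I * J) x)).1 = Ideal.Quotient.mk I x := by
    change ((Ideal.quotientMulEquivQuotientProd I J hIJ) (Ideal.Quotient.mk (I * J) x)).1 = _
    rw [Ideal.quotientMulEquivQuotientProd_fst]
    rfl
  have h3 : ((Ideal.quotientMulEquivQuotientProd I J hIJ).toEquiv
      (Ideal.Quotient.mk (I * J) x)).2 = Ideal.Quotient.mk J x := by
    change ((Ideal.quotientMulEquivQuotientProd I J hIJ) (Ideal.Quotient.mk (I * J) x)).2 = _
    rw [Ideal.quotientMulEquivQuotientProd_snd]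
    rfl
  rw [h2, h3, hf.onQuot_mk, hg.onQuot_mk]

end Quot

namespace QD

section Basic

variable {R R' : Type*} [CommRing R] [CommRing R'] [Algebra R R'] (q : QD R R')

/-- extension of ideals -/
abbrev ex (D : Ideal R) : Ideal R' := D.map (algebraMap R R')

/-- conjugate ideal -/
abbrev cj (J : Ideal R') : Ideal R' := J.map q.σ

/-- the ideal generated by the `a - σ a` -/
def dif : Ideal R' := Ideal.span (Set.range fun a => a - q.σ a)

theorem mem_cj {J : Ideal R'} {x : R'} : x ∈ q.cj J ↔ q.σ x ∈ J := by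
  constructor
  · intro h
    refine Submodule.span_induction (p := fun x _ => q.σ x ∈ J) ?_ ?_ ?_ ?_ h
    · rintro _ ⟨y, hy, rfl⟩
      rw [q.σσ]
      exact hy
    · rw [map_zero]; exact J.zero_mem
    · intro a b _ _ ha hb
      rw [map_add]; exact J.add_mem ha hb
    · intro r a _ ha
      rw [smul_eq_mul, map_mul]; exact J.mul_mem_left _ ha
  · intro h
    rw [← q.σσ x]
    exact Ideal.mem_map_of_mem _ h

theorem cj_cj (J : Ideal R') : q.cj (q.cj J) = J := by
  ext x
  rw [mem_cj, mem_cj, q.σσ]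

theorem cj_mul (J K : Ideal R') : q.cj (J * K) = q.cj J * q.cj K := Ideal.map_mul _ _ _

theorem cj_sup (J K : Ideal R') : q.cj (J ⊔ K) = q.cj J ⊔ q.cj K := Ideal.map_sup _ _ _

theorem cj_top : q.cj ⊤ = ⊤ := Ideal.map_top _

theorem cj_le {J K : Ideal R'} (h : J ≤ K) : q.cj J ≤ q.cj K := Ideal.map_mono h

theorem cj_ex (D : Ideal R) : q.cj (ex D) = ex D := by
  rw [cj, ex, Ideal.map_map]
  congr 1
  ext x
  exact q.σ_alg x

theorem cj_span (x : R') : q.cj (Ideal.span {x}) = Ideal.span {q.σ x} := by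
  rw [cj, Ideal.map_span, Set.image_singleton]

theorem nm_one : q.nm 1 = 1 := by
  apply q.inj
  simp [q.nm_alg]

theorem tr_mem' (D : Ideal R) {u : R'} (hu : u ∈ ex D) : q.tr u ∈ D := by
  have h1 : q.σ u ∈ ex D := by
    rw [← q.mem_cj, q.cj_ex]; exact hu
  have := q.tr_mem D h1 1
  rwa [q.σσ, one_mul] at this

include q in
theorem ex_ne_top {D : Ideal R} (hD : D ≠ ⊤) : ex (R' := R') D ≠ ⊤ := by
  intro h
  have h1 := q.nm_mem D (u := 1) (by
    change (1 : R') ∈ ex D
    rw [h]; trivial)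
  rw [q.nm_one] at h1
  exact hD ((Ideal.eq_top_iff_one _).mpr h1)

/-- **duality** -/
theorem mem_ex_of_tr {D : Ideal R} (hun : q.dif ⊔ ex D = ⊤) {x : R'}
    (hx : ∀ y, q.tr (x * y) ∈ D) : x ∈ ex D := by
  have h1 : ∀ a : R', x * (a - q.σ a) ∈ ex (R' := R') D := by
    intro a
    have : x * (a - q.σ a) = algebraMap R R' (q.tr (x * a)) -
        q.σ a * algebraMap R R' (q.tr (x * 1)) := by
      rw [q.tr_alg, q.tr_alg, map_mul, map_mul, map_one]
      ring
    rw [this]
    exact Ideal.sub_mem _ (Ideal.mem_map_of_mem _ (hx a))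
      (Ideal.mul_mem_left _ _ (Ideal.mem_map_of_mem _ (hx 1)))
  have h2 : ∀ d ∈ q.dif, x * d ∈ ex (R' := R') D := by
    intro d hd
    refine Submodule.span_induction (p := fun d _ => x * d ∈ ex (R' := R') D) ?_ ?_ ?_ ?_ hd
    · rintro _ ⟨a, rfl⟩
      exact h1 a
    · rw [mul_zero]; exact Ideal.zero_mem _
    · intro a b _ _ ha hb
      rw [mul_add]; exact Ideal.add_mem _ ha hb
    · intro r a _ ha
      rw [smul_eq_mul, mul_left_comm]; exact Ideal.mul_mem_left _ _ ha
  have h3 : (1 : R') ∈ q.dif ⊔ ex D := by rw [hun]; trivial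
  obtain ⟨d, hd, r, hr, hdr⟩ := Submodule.mem_sup.mp h3
  have : x = x * d + x * r := by rw [← mul_add, hdr, mul_one]
  rw [this]
  exact Ideal.add_mem _ (h2 d hd) (Ideal.mul_mem_left _ _ hr)

/-- the traces are coprime to `D` -/
theorem exists_tr {D : Ideal R} (hun : q.dif ⊔ ex D = ⊤) :
    ∃ t d, d ∈ D ∧ q.tr t + d = 1 := by
  -- the ideal of traces
  let T : Ideal R :=
    { carrier := Set.range q.tr
      add_mem' := by
        rintro _ _ ⟨a, rfl⟩ ⟨b, rfl⟩
        exact ⟨a + b, q.tr_add a b⟩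
      zero_mem' := ⟨0, q.tr_zero⟩
      smul_mem' := by
        rintro c _ ⟨a, rfl⟩
        exact ⟨algebraMap R R' c * a, q.tr_smul c a⟩ }
  have h1 : q.dif ≤ ex T := by
    refine Ideal.span_le.mpr ?_
    rintro _ ⟨a, rfl⟩
    have : a - q.σ a = algebraMap R R' (q.tr (1 * a)) - q.σ a * algebraMap R R' (q.tr 1) := by
      rw [q.tr_alg, q.tr_alg, map_mul, map_one]
      ring
    change a - q.σ a ∈ ex T
    rw [this]
    exact Ideal.sub_mem _ (Ideal.mem_map_of_mem _ ⟨_, rfl⟩)
      (Ideal.mul_mem_left _ _ (Ideal.mem_map_of_mem _ ⟨_, rfl⟩))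
  have h2 : (1 : R') ∈ ex (T ⊔ D) := by
    have h3 : q.dif ⊔ ex D ≤ ex (T ⊔ D) := by
      have h4 : ex (R' := R') (T ⊔ D) = ex T ⊔ ex D := Ideal.map_sup _ _ _
      rw [h4]
      exact sup_le (h1.trans le_sup_left) le_sup_right
    rw [hun] at h3
    exact h3 trivial
  have h4 := q.nm_mem (T ⊔ D) h2
  rw [q.nm_one] at h4
  obtain ⟨_, ⟨t, rfl⟩, d, hd, h⟩ := Submodule.mem_sup.mp h4
  exact ⟨t, d, hd, h⟩

/-- **contraction** -/
theorem mem_of_alg_mem {D : Ideal R} (hun : q.dif ⊔ ex D = ⊤) {r : R}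
    (hr : algebraMap R R' r ∈ ex D) : r ∈ D := by
  obtain ⟨t, d, hd, h⟩ := q.exists_tr hun
  have h1 : q.tr (algebraMap R R' r * t) ∈ D := q.tr_mem' D (Ideal.mul_mem_right _ _ hr)
  rw [q.tr_smul] at h1
  have : r = r * q.tr t + r * d := by rw [← mul_add, h, mul_one]
  rw [this]
  exact Ideal.add_mem _ h1 (Ideal.mul_mem_left _ _ hd)

theorem un_mono {D D₂ : Ideal R} (hun : q.dif ⊔ ex D = ⊤) (h : D ≤ D₂) : q.dif ⊔ ex D₂ = ⊤ := by
  refine top_le_iff.mp ?_
  rw [← hun]
  exact sup_le_sup_left (Ideal.map_mono h) _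

theorem ex_mul (C D : Ideal R) : ex (R' := R') (C * D) = ex C * ex D := Ideal.map_mul _ _ _

theorem per_ex {e : AddChar R ℂ} {D : Ideal R} (hD : cond e = D) :
    Per (ex D) fun x => e (q.nm x) := per_nm q hD.ge

end Basic

section Peel

variable {R R' : Type*} [CommRing R] [CommRing R'] [Algebra R R'] (q : QD R R')
  [IsDedekindDomain R']

/-- **Peeling off a norm.** -/
theorem exists_peel {e : AddChar R ℂ} {C D D₂ : Ideal R} {J : Ideal R'} (hD : D = C * D₂)
    (hJ : J ≠ ⊥) (hD₂ : ex (R' := R') D₂ ≠ ⊥) (hC : J * q.cj J = ex C) (hcond : cond e = D)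
    (hun : q.dif ⊔ ex D = ⊤) [Fintype (R' ⧸ ex (R' := R') D)]
    [Fintype (R' ⧸ (q.cj J * ex D₂))] [Fintype (R' ⧸ ex (R' := R') D₂)] :
    ∃ e₂ : AddChar R ℂ, cond e₂ = D₂ ∧
      (Fintype.card (R' ⧸ ex (R' := R') D₂) : ℂ) * gauss q (ex D) e =
        (Fintype.card (R' ⧸ (q.cj J * ex D₂)) : ℂ) * gauss q (ex D₂) e₂ := by
  classical
  have hexD : ex (R' := R') D = J * (q.cj J * ex D₂) := by
    rw [hD, ex_mul, ← mul_assoc, hC]
  have hun₂ : q.dif ⊔ ex D₂ = ⊤ := q.un_mono hun (hD ▸ Ideal.mul_le_right)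
  have hcjJ : q.cj J ≠ ⊥ := by
    intro h
    apply hJ
    rw [← q.cj_cj J, h]
    exact Ideal.map_bot
  have hD0 : ex (R' := R') D ≠ ⊥ := by
    rw [hexD]
    exact mul_ne_zero (by simpa using hJ) (mul_ne_zero (by simpa using hcjJ) (by simpa using hD₂))
  -- the element `α`
  obtain ⟨α, hα⟩ := IsDedekindDomain.exists_sup_span_eq (I := ex (R' := R') D) (J := J)
    (by rw [hexD]; exact Ideal.mul_le_left) (by simpa using hD0)
  have hαJ : α ∈ J := by
    rw [← hα]
    exact Ideal.mem_sup_right (Ideal.mem_span_singleton_self α)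
  obtain ⟨B, hB⟩ : J ∣ Ideal.span {α} := by
    rw [Ideal.dvd_iff_le, Ideal.span_singleton_le_iff_mem]; exact hαJ
  have hVB : (q.cj J * ex D₂) ⊔ B = ⊤ := by
    have h1 : J * ((q.cj J * ex D₂) ⊔ B) = J * ⊤ := by
      rw [Ideal.mul_sup, ← hexD, ← hB, hα, Ideal.mul_top]
    exact mul_left_cancel₀ (a := J) (by simpa using hJ) h1
  have hBD : ex D₂ ⊔ B = ⊤ := by
    refine top_le_iff.mp ?_
    rw [← hVB]
    exact sup_le_sup_right Ideal.mul_le_right _
  have hBD' : ex D₂ ⊔ q.cj B = ⊤ := by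
    rw [← q.cj_ex D₂, ← q.cj_sup, hBD, q.cj_top]
  have hBB : ex D₂ ⊔ B * q.cj B = ⊤ := by
    have h1 : IsCoprime (ex D₂) B := Ideal.isCoprime_iff_sup_eq.mpr hBD
    have h2 : IsCoprime (ex D₂) (q.cj B) := Ideal.isCoprime_iff_sup_eq.mpr hBD'
    exact Ideal.isCoprime_iff_sup_eq.mp (h1.mul_right h2)
  have hspan : ∀ t : R, Ideal.span {algebraMap R R' (q.nm α * t)} =
      ex C * ((B * q.cj B) * Ideal.span {algebraMap R R' t}) := by
    intro t
    have h1 : Ideal.span {q.σ α} = q.cj J * q.cj B := by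
      rw [← q.cj_span, hB, q.cj_mul]
    rw [map_mul, q.nm_alg, ← Ideal.span_singleton_mul_span_singleton,
      ← Ideal.span_singleton_mul_span_singleton, hB, h1, ← hC]
    ring
  have hC0 : ex (R' := R') C ≠ 0 := by
    rw [← hC]
    exact mul_ne_zero (by simpa using hJ) (by simpa using hcjJ)
  refine ⟨twc e (q.nm α), ?_, ?_⟩
  · ext t
    rw [mem_cond_twc, hcond]
    have h1 : q.nm α * t ∈ D ↔ algebraMap R R' (q.nm α * t) ∈ ex D :=
      ⟨fun h => Ideal.mem_map_of_mem _ h, fun h => q.mem_of_alg_mem hun h⟩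
    rw [h1, ← Ideal.span_singleton_le_iff_mem, hspan, hD, ex_mul]
    constructor
    · intro h
      rw [← Ideal.dvd_iff_le, mul_dvd_mul_iff_left hC0, Ideal.dvd_iff_le] at h
      apply q.mem_of_alg_mem hun₂
      have h2 : (ex D₂ ⊔ B * q.cj B) * Ideal.span {algebraMap R R' t} ≤ ex D₂ := by
        rw [Ideal.sup_mul]
        exact sup_le Ideal.mul_le_left h
      rw [hBB, Ideal.top_mul, Ideal.span_singleton_le_iff_mem] at h2
      exact h2
    · intro h
      refine Ideal.mul_mono_right ?_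
      refine Ideal.mul_le_right.trans ?_
      rw [Ideal.span_singleton_le_iff_mem]
      exact Ideal.mem_map_of_mem _ h
  · -- the value
    have hper := q.per_ex hcond
    have hper₂ : Per (ex (R' := R') D₂) fun x => twc e (q.nm α) (q.nm x) := by
      apply per_nm q
      intro t ht
      rw [mem_cond_twc, hcond]
      apply q.mem_of_alg_mem hun
      rw [← Ideal.span_singleton_le_iff_mem, hspan, hD, ex_mul]
      refine Ideal.mul_mono_right ?_
      refine Ideal.mul_le_right.trans ?_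
      rw [Ideal.span_singleton_le_iff_mem]
      exact Ideal.mem_map_of_mem _ ht
    have hcross : ∀ x z : R', x * z ∈ ex D → e (q.tr (x * z)) = 1 := fun x z h =>
      eq_one_of_mem_cond (hcond.symm ▸ q.tr_mem' D h)
    have hstat : ∀ x : R', (∀ u ∈ J * ex D₂, e (q.tr (x * q.σ u)) = 1) ↔ x ∈ J := by
      intro x
      constructor
      · intro h
        have h1 : ∀ v ∈ q.cj J * ex D₂, x * v ∈ ex D := by
          intro v hv
          have hv' : q.σ v ∈ J * ex D₂ := by
            rw [← q.mem_cj, q.cj_mul, q.cj_ex]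
            exact hv
          apply q.mem_ex_of_tr hun
          intro y
          rw [← hcond, mem_cond]
          intro r
          have h2 := h (q.σ v * (algebraMap R R' r * q.σ y)) (Ideal.mul_mem_right _ _ hv')
          rw [map_mul, map_mul, q.σσ, q.σσ, q.σ_alg] at h2
          rw [← q.tr_smul, ← h2]
          congr 2
          ring
        have h3 : (q.cj J * ex D₂) * Ideal.span {x} ≤ (q.cj J * ex D₂) * J := by
          rw [mul_comm _ J, ← hexD, Ideal.mul_le]
          intro v hv y hy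
          obtain ⟨z, rfl⟩ := Ideal.mem_span_singleton'.mp hy
          have : v * (z * x) = z * (x * v) := by ring
          rw [this]
          exact Ideal.mul_mem_left _ _ (h1 v hv)
        rw [← Ideal.dvd_iff_le, mul_dvd_mul_iff_left (mul_ne_zero (by simpa using hcjJ)
          (by simpa using hD₂)), Ideal.dvd_iff_le, Ideal.span_singleton_le_iff_mem] at h3
        exact h3
      · intro hx u hu
        apply hcross
        rw [hexD]
        refine Ideal.mul_mem_mul hx ?_
        have := Ideal.mem_map_of_mem q.σ hu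
        change q.σ u ∈ q.cj (J * ex D₂) at this
        rwa [q.cj_mul, q.cj_ex] at this
    have hU : ∀ u ∈ J * ex D₂, e (q.nm u) = 1 := by
      intro u hu
      apply eq_one_of_mem_cond
      rw [hcond]
      apply q.mem_of_alg_mem hun
      rw [q.nm_alg, hexD]
      refine Ideal.mul_mono Ideal.mul_le_left (le_refl _) (Ideal.mul_mem_mul hu ?_)
      have := Ideal.mem_map_of_mem q.σ hu
      change q.σ u ∈ q.cj (J * ex D₂) at this
      rwa [q.cj_mul, q.cj_ex] at this
    have h1 := stationary q (e := e) (I := ex (R' := R') D) (U := J * ex D₂) hper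
      (fun x u hu => hcross x _ (Ideal.mul_mem_left _ _ (by
        rw [← q.cj_ex D]; exact Ideal.mem_map_of_mem _ hu))) hU
    have h2 : qs (ex (R' := R') D) (fun x => if ∀ u ∈ J * ex D₂, e (q.tr (x * q.σ u)) = 1
        then e (q.nm x) else 0) =
        qs (ex (R' := R') D) (fun x => if x ∈ J then e (q.nm x) else 0) := by
      refine qs_congr fun x => ?_
      simp only [hstat]
    have h3 := qs_scale (f := fun x => e (q.nm x)) hJ hexD hα hper
    have h4 : gauss q (ex D) e =
        qs (q.cj J * ex D₂) (fun y => twc e (q.nm α) (q.nm y)) := by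
      rw [gauss, h1, h2, h3]
      refine qs_congr fun y => ?_
      rw [q.nm_mul]
      rfl
    rw [h4]
    exact qs_coarse (V := q.cj J * ex D₂) (W := ex D₂) Ideal.mul_le_right hper₂

end Peel

section Crt

variable {R R' : Type*} [CommRing R] [CommRing R'] [Algebra R R'] (q : QD R R')

theorem exists_crt {e : AddChar R ℂ} {D D₁ D₂ : Ideal R} (hD : D = D₁ * D₂)
    (hcop : IsCoprime D₁ D₂) (hcond : cond e = D) [Fintype (R' ⧸ ex (R' := R') D)]
    [Fintype (R' ⧸ ex (R' := R') D₁)] [Fintype (R' ⧸ ex (R' := R') D₂)] :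
    ∃ e₁ e₂ : AddChar R ℂ, cond e₁ = D₁ ∧ cond e₂ = D₂ ∧
      gauss q (ex D) e = gauss q (ex D₁) e₁ * gauss q (ex D₂) e₂ := by
  obtain ⟨a₂, ha₂, a₁, ha₁, h1⟩ := Submodule.mem_sup.mp
    ((Ideal.eq_top_iff_one _).mp (Ideal.isCoprime_iff_sup_eq.mp hcop))
  have key : ∀ {a b : R} {I J : Ideal R}, a ∈ J → b ∈ I → b + a = 1 → cond e = I * J →
      cond (twc e (a ^ 2)) = I := by
    intro a b I J ha hb hab hc
    ext t
    rw [mem_cond_twc, hc]
    constructor
    · intro h
      have h2 := Ideal.mul_le_left h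
      have h3 : t = a ^ 2 * t + b * (t * (1 + a)) := by
        have : b = 1 - a := by rw [← hab]; ring
        rw [this]
        ring
      rw [h3]
      exact I.add_mem h2 (I.mul_mem_right _ hb)
    · intro h
      have : a ^ 2 * t = t * (a * a) := by ring
      rw [this]
      exact Ideal.mul_mem_mul h (J.mul_mem_left _ ha)
  have hc₁ : cond (twc e (a₁ ^ 2)) = D₁ := key ha₁ ha₂ h1 (hcond.trans hD)
  have hc₂ : cond (twc e (a₂ ^ 2)) = D₂ :=
    key ha₂ ha₁ (by rw [add_comm]; exact h1) ((hcond.trans hD).trans (mul_comm _ _))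
  refine ⟨_, _, hc₁, hc₂, ?_⟩
  have h2 : ∀ x : R', e (q.nm x) = twc e (a₁ ^ 2) (q.nm x) * twc e (a₂ ^ 2) (q.nm x) := by
    intro x
    have h3 : q.nm x = a₁ ^ 2 * q.nm x + a₂ ^ 2 * q.nm x + (2 * q.nm x) * (a₂ * a₁) := by
      have : a₂ = 1 - a₁ := by rw [← h1]; ring
      rw [this]
      ring
    rw [twc_apply, twc_apply, ← AddChar.map_add_eq_mul]
    conv_lhs => rw [h3, AddChar.map_add_eq_mul]
    rw [eq_one_of_mem_cond (e := e) (t := (2 * q.nm x) * (a₂ * a₁)), mul_one]
    rw [hcond, hD]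
    exact Ideal.mul_mem_left _ _ (Ideal.mul_mem_mul ha₂ ha₁)
  rw [gauss, qs_congr h2]
  have hcop' : IsCoprime (ex (R' := R') D₁) (ex D₂) := by
    have h3 : (ex (R' := R') D₁) ⊔ ex D₂ = ⊤ := by
      have h4 : ex (R' := R') (D₁ ⊔ D₂) = ex D₁ ⊔ ex D₂ := Ideal.map_sup _ _ _
      rw [← h4, Ideal.isCoprime_iff_sup_eq.mp hcop]
      exact Ideal.map_top _
    exact Ideal.isCoprime_iff_sup_eq.mpr h3
  exact qs_crt (hD ▸ ex_mul D₁ D₂) hcop' (q.per_ex hc₁) (q.per_ex hc₂)

end Crt

section Inert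

variable {R R' : Type*} [CommRing R] [CommRing R'] [Algebra R R'] (q : QD R R') {v : Ideal R}

/-- the residual involution -/
def sbar (v : Ideal R) : (R' ⧸ ex (R' := R') v) →+* (R' ⧸ ex (R' := R') v) :=
  Ideal.Quotient.lift _ ((Ideal.Quotient.mk (ex v)).comp q.σ) (by
    intro a ha
    rw [RingHom.comp_apply, Ideal.Quotient.eq_zero_iff_mem, ← q.mem_cj, q.cj_ex]
    exact ha)

@[simp] theorem sbar_mk (x : R') : q.sbar v (Ideal.Quotient.mk _ x) = Ideal.Quotient.mk _ (q.σ x) :=
  rfl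

theorem sbar_sbar (x : R' ⧸ ex (R' := R') v) : q.sbar v (q.sbar v x) = x := by
  obtain ⟨x, rfl⟩ := Ideal.Quotient.mk_surjective x
  rw [sbar_mk, sbar_mk, q.σσ]

theorem nm_sub_mem {x y : R'} (h : x - y ∈ ex v) : q.nm x - q.nm y ∈ v := by
  obtain ⟨u, rfl⟩ : ∃ u, x = y + u := ⟨x - y, by ring⟩
  rw [add_sub_cancel_left] at h
  rw [q.nm_add]
  have : ∀ a b c : R, a + b + c - a = b + c := fun a b c => by ring
  rw [this]
  exact v.add_mem (q.tr_mem v h _) (q.nm_mem v h)

/-- the residual norm -/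
def nbar (v : Ideal R) : (R' ⧸ ex (R' := R') v) →* (R ⧸ v) where
  toFun x := Ideal.Quotient.mk v (q.nm (Quotient.out x))
  map_one' := by
    rw [← map_one (Ideal.Quotient.mk v), ← q.nm_one, Ideal.Quotient.eq]
    apply q.nm_sub_mem
    rw [← Ideal.Quotient.eq, Ideal.Quotient.mk_out, map_one]
  map_mul' := by
    intro x y
    rw [← map_mul, ← q.nm_mul, Ideal.Quotient.eq]
    apply q.nm_sub_mem
    rw [← Ideal.Quotient.eq, Ideal.Quotient.mk_out, map_mul, Ideal.Quotient.mk_out,
      Ideal.Quotient.mk_out]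

theorem nbar_mk (x : R') : q.nbar v (Ideal.Quotient.mk _ x) = Ideal.Quotient.mk v (q.nm x) := by
  change Ideal.Quotient.mk v (q.nm (Quotient.out (Ideal.Quotient.mk (ex v) x))) = _
  rw [Ideal.Quotient.eq]
  apply q.nm_sub_mem
  rw [← Ideal.Quotient.eq, Ideal.Quotient.mk_out]

/-- the residual inclusion -/
def abar (R' : Type*) [CommRing R'] [Algebra R R'] (v : Ideal R) :
    (R ⧸ v) →+* (R' ⧸ ex (R' := R') v) :=
  Ideal.Quotient.lift _ ((Ideal.Quotient.mk (ex v)).comp (algebraMap R R')) (by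
    intro a ha
    rw [RingHom.comp_apply, Ideal.Quotient.eq_zero_iff_mem]
    exact Ideal.mem_map_of_mem _ ha)

@[simp] theorem abar_mk (r : R) :
    abar R' v (Ideal.Quotient.mk v r) = Ideal.Quotient.mk _ (algebraMap R R' r) := rfl

theorem abar_nbar (x : R' ⧸ ex (R' := R') v) : abar R' v (q.nbar v x) = x * q.sbar v x := by
  obtain ⟨x, rfl⟩ := Ideal.Quotient.mk_surjective x
  rw [nbar_mk, abar_mk, q.nm_alg, map_mul, sbar_mk]

theorem sbar_abar (a : R ⧸ v) : q.sbar v (abar R' v a) = abar R' v a := by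
  obtain ⟨a, rfl⟩ := Ideal.Quotient.mk_surjective a
  rw [abar_mk, sbar_mk, q.σ_alg]

theorem abar_injective (hun : q.dif ⊔ ex v = ⊤) : Function.Injective (abar R' v) := by
  rw [injective_iff_map_eq_zero]
  intro a ha
  obtain ⟨a, rfl⟩ := Ideal.Quotient.mk_surjective a
  rw [abar_mk, Ideal.Quotient.eq_zero_iff_mem] at ha
  rw [Ideal.Quotient.eq_zero_iff_mem]
  exact q.mem_of_alg_mem hun ha

/-- fixed elements come from below -/
theorem exists_abar (hun : q.dif ⊔ ex v = ⊤) {x : R' ⧸ ex (R' := R') v} (hx : q.sbar v x = x) :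
    ∃ a, abar R' v a = x := by
  obtain ⟨y, rfl⟩ := Ideal.Quotient.mk_surjective x
  obtain ⟨t, d, hd, htd⟩ := q.exists_tr hun
  refine ⟨Ideal.Quotient.mk v (q.tr (y * t)), ?_⟩
  rw [sbar_mk] at hx
  have h1 : Ideal.Quotient.mk (ex (R' := R') v) (algebraMap R R' d) = 0 := by
    rw [Ideal.Quotient.eq_zero_iff_mem]; exact Ideal.mem_map_of_mem _ hd
  have h2 : Ideal.Quotient.mk (ex (R' := R') v) (algebraMap R R' (q.tr t)) = 1 := by
    have := congrArg (fun z => Ideal.Quotient.mk (ex (R' := R') v) (algebraMap R R' z)) htd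
    simpa [map_add, h1] using this
  rw [abar_mk, q.tr_alg, map_mul, map_add, map_mul, map_mul, hx, ← mul_add, ← map_add,
    ← q.tr_alg, h2, mul_one]

end Inert

end QD

end Fermat.Agent.LT.Th
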